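/-
S48lib / X1 / Forms / Period (helper7).
The period map of weight 2 cusp forms for a finite index subgroup `Γ ≤ SL(2,ℤ)`:
`periodLin Γ : S₂(Γ) →ₗ[ℂ] Hom(Γ, ℂ)`, its injectivity (maximum principle on `Γ\ℍ*`), and the
finite-dimensionality of `S₂(Γ)`.
(PARAM port of ProgramR/ES/{Primitive, Injective} from `Γ₀(N)` to `Γ`.)
-/
import Mathlib
import Fermat.Prelude.Thm_Subgroup_IsArithmetic_exists_nat_mem_strictPeriods_conj
import Fermat.Agent.TeamB.EichlerQ
import Fermat.Agent.ProgramR.ES.Primitive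
import Fermat.Agent.ProgramR.ES.MaxPrinciple

set_option autoImplicit false

noncomputable section

namespace Fermat.Agent.S48lib.X1.Forms

open UpperHalfPlane Filter Topology CongruenceSubgroup Matrix.SpecialLinearGroup
open Fermat.Agent.TeamB Fermat.Agent.ProgramR.ES
open scoped MatrixGroups ModularForm Manifold Pointwise

variable (Γ : Subgroup SL(2, ℤ)) [Γ.FiniteIndex]

/-- the weight 2 cusp forms for `Γ` -/
abbrev S2 : Type := CuspForm (Γ : Subgroup (GL (Fin 2) ℝ)) 2

lemma exists_period : ∃ M : ℕ, 0 < M ∧ ∀ δ : SL(2, ℤ),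
    (M : ℝ) ∈ (ConjAct.toConjAct (mapGL ℝ δ : GL (Fin 2) ℝ)⁻¹ •
      (Γ : Subgroup (GL (Fin 2) ℝ))).strictPeriods := by
  obtain ⟨M, hM, h⟩ := Subgroup.IsArithmetic.exists_nat_mem_strictPeriods_conj
    (Γ : Subgroup (GL (Fin 2) ℝ))
  refine ⟨M, hM, fun δ => ?_⟩
  have := h δ⁻¹
  rwa [map_inv] at this

/-- a common period of all translates of `Γ`-forms -/
def per : ℕ := (exists_period Γ).choose

lemma per_pos : 0 < per Γ := (exists_period Γ).choose_spec.1

lemma per_pos' : (0 : ℝ) < (per Γ : ℝ) := by exact_mod_cast per_pos Γ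

lemma per_mem (δ : SL(2, ℤ)) :
    (per Γ : ℝ) ∈ (ConjAct.toConjAct (mapGL ℝ δ : GL (Fin 2) ℝ)⁻¹ •
      (Γ : Subgroup (GL (Fin 2) ℝ))).strictPeriods := (exists_period Γ).choose_spec.2 δ

lemma per_mem_one : (per Γ : ℝ) ∈ (Γ : Subgroup (GL (Fin 2) ℝ)).strictPeriods := by
  have := per_mem Γ 1
  simpa using this

variable {Γ}

theorem isCuspidal_slash {k : ℤ} (f : CuspForm (Γ : Subgroup (GL (Fin 2) ℝ)) k) (δ : SL(2, ℤ)) :
    IsCuspidal (per Γ : ℝ) ((⇑f) ∣[k] (mapGL ℝ δ : GL (Fin 2) ℝ)) where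
  per := SlashInvariantFormClass.periodic_comp_ofComplex
    (SlashInvariantForm.translate f (mapGL ℝ δ : GL (Fin 2) ℝ)) (per_mem Γ δ)
  hol := (CuspFormClass.holo f).slash k _
  zero := CuspFormClass.zero_at_infty_slash f δ

theorem isCuspidal_cuspForm {k : ℤ} (f : CuspForm (Γ : Subgroup (GL (Fin 2) ℝ)) k) :
    IsCuspidal (per Γ : ℝ) (⇑f) where
  per := SlashInvariantFormClass.periodic_comp_ofComplex f (per_mem_one Γ)
  hol := CuspFormClass.holo f
  zero := CuspFormClass.zero_at_infty f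

theorem slash_mapGL_eq {k : ℤ} (f : CuspForm (Γ : Subgroup (GL (Fin 2) ℝ)) k) {γ : SL(2, ℤ)}
    (hγ : γ ∈ Γ) : (⇑f) ∣[k] (mapGL ℝ γ : GL (Fin 2) ℝ) = ⇑f :=
  SlashInvariantFormClass.slash_action_eq f _ (Subgroup.mem_map_of_mem (mapGL ℝ) hγ)

/-! ### The normalised primitive -/

/-- The normalised primitive of a weight 2 cusp form: `(prim f)' = f`, `prim f → 0` at `i∞`. -/
def prim (f : S2 Γ) : ℍ → ℂ := primChain (per Γ : ℝ) (⇑f) 1

theorem prim_cuspidal (f : S2 Γ) : IsCuspidal (per Γ : ℝ) (prim f) :=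
  primChain_cuspidal (per_pos' Γ) (isCuspidal_cuspForm f) 1

theorem prim_hasDerivH (f : S2 Γ) : HasDerivH (prim f) (⇑f) := by
  have := primChain_hasDerivH (per_pos' Γ) (isCuspidal_cuspForm f) 0
  rwa [primChain_zero] at this

theorem prim_tendsto (f : S2 Γ) : Tendsto (prim f) atImInfty (𝓝 0) := (prim_cuspidal f).zero

theorem prim_mdifferentiable (f : S2 Γ) : MDiff (prim f) := (prim_cuspidal f).hol

theorem eq_prim {f : S2 Γ} {F : ℍ → ℂ} (h : HasDerivH F (⇑f))
    (t : Tendsto F atImInfty (𝓝 0)) : F = prim f :=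
  eq_of_hasDerivH_of_tendsto h (prim_hasDerivH f) t (prim_tendsto f)

theorem prim_add (f g : S2 Γ) : prim (f + g) = prim f + prim g := by
  symm
  refine eq_prim ?_ ?_
  · rw [FunLike.coe_add]
    exact hasDerivH_add (prim_hasDerivH f) (prim_hasDerivH g)
  · have e := (prim_tendsto f).add (prim_tendsto g)
    rw [add_zero] at e
    exact e

theorem prim_smul (c : ℂ) (f : S2 Γ) : prim (c • f) = c • prim f := by
  symm
  refine eq_prim ?_ ?_
  · rw [FunLike.coe_smul]
    exact hasDerivH_const_smul (prim_hasDerivH f) c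
  · have e := (prim_tendsto f).const_smul c
    rw [smul_zero] at e
    exact e

/-- `prim f ∘ γ` is again a primitive of `f`, for `γ ∈ Γ`. -/
theorem prim_comp_hasDerivH (f : S2 Γ) {γ : SL(2, ℤ)} (hγ : γ ∈ Γ) :
    HasDerivH (fun z => prim f (γ • z)) (⇑f) := by
  have := hasDerivH_comp_smul (prim_hasDerivH f) (det_mapGL_pos γ)
  rwa [slash_mapGL_eq f hγ] at this

/-- `prim f ∘ δ` has a limit at `i∞` for every `δ ∈ SL(2, ℤ)`. -/
theorem prim_tendsto_smul (f : S2 Γ) (δ : SL(2, ℤ)) :
    ∃ L : ℂ, Tendsto (fun w : ℍ => prim f (δ • w)) atImInfty (𝓝 L) := by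
  have hM' := per_pos' Γ
  set g : ℍ → ℂ := (⇑f) ∣[(2 : ℤ)] (mapGL ℝ δ : GL (Fin 2) ℝ) with hg
  have hgc : IsCuspidal (per Γ : ℝ) g := isCuspidal_slash f δ
  set G : ℍ → ℂ := primChain (per Γ : ℝ) g 1 with hGdef
  have hG : HasDerivH G g := by
    have := primChain_hasDerivH hM' hgc 0
    rwa [primChain_zero] at this
  have hG0 : Tendsto G atImInfty (𝓝 0) := (primChain_cuspidal hM' hgc 1).zero
  have h1 : HasDerivH (fun z => prim f (δ • z)) g :=
    hasDerivH_comp_smul (prim_hasDerivH f) (det_mapGL_pos δ)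
  refine ⟨prim f (δ • I) - G I, ?_⟩
  have hfun : (fun w : ℍ => prim f (δ • w)) = fun w => G w + (prim f (δ • I) - G I) := by
    funext w
    have := sub_const_of_hasDerivH h1 hG w I
    linear_combination this
  rw [hfun]
  simpa using hG0.add_const (prim f (δ • I) - G I)

/-! ### The period homomorphism -/

/-- the period of `f` along `γ ∈ Γ` -/
def period (f : S2 Γ) (γ : Γ) : ℂ := prim f ((γ : SL(2, ℤ)) • I) - prim f I

theorem period_eq (f : S2 Γ) (γ : Γ) (z : ℍ) :
    period f γ = prim f ((γ : SL(2, ℤ)) • z) - prim f z :=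
  (sub_const_of_hasDerivH (prim_comp_hasDerivH f γ.2) (prim_hasDerivH f) z I).symm

theorem period_mul (f : S2 Γ) (γ γ' : Γ) : period f (γ * γ') = period f γ + period f γ' := by
  rw [period_eq f (γ * γ') I, period_eq f γ ((γ' : SL(2, ℤ)) • I), period_eq f γ' I]
  rw [Subgroup.coe_mul, mul_smul]
  ring

theorem period_one (f : S2 Γ) : period f 1 = 0 := by
  have := period_mul f 1 1
  rw [mul_one] at this
  linear_combination -this

/-- the period homomorphism of `f` -/
def periodHom (f : S2 Γ) : Additive Γ →+ ℂ where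
  toFun γ := period f (Additive.toMul γ)
  map_zero' := period_one f
  map_add' γ γ' := period_mul f _ _

@[simp] theorem periodHom_apply (f : S2 Γ) (γ : Γ) :
    periodHom f (Additive.ofMul γ) = period f γ := rfl

variable (Γ)

/-- **the period map** -/
def periodLin : S2 Γ →ₗ[ℂ] (Additive Γ →+ ℂ) where
  toFun f := periodHom f
  map_add' f g := by
    refine AddMonoidHom.ext fun γ => ?_
    obtain ⟨γ, rfl⟩ := Additive.ofMul.surjective γ
    rw [AddMonoidHom.add_apply, periodHom_apply, periodHom_apply, periodHom_apply, period, period,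
      period, prim_add]
    simp only [Pi.add_apply]
    ring
  map_smul' c f := by
    refine AddMonoidHom.ext fun γ => ?_
    obtain ⟨γ, rfl⟩ := Additive.ofMul.surjective γ
    rw [RingHom.id_apply, AddMonoidHom.smul_apply, periodHom_apply, periodHom_apply, period,
      period, prim_smul]
    simp only [Pi.smul_apply, smul_eq_mul]
    ring

variable {Γ}

@[simp] theorem periodLin_apply (f : S2 Γ) (γ : Γ) :
    periodLin Γ f (Additive.ofMul γ) = period f γ := rfl

theorem periodLin_apply' (f : S2 Γ) (γ : Γ) (z : ℍ) :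
    periodLin Γ f (Additive.ofMul γ) = prim f ((γ : SL(2, ℤ)) • z) - prim f z :=
  period_eq f γ z

/-- A constant function on `ℍ` has zero derivative. -/
theorem eq_zero_of_hasDerivH_of_const' {F g : ℍ → ℂ} (h : HasDerivH F g)
    (hc : ∀ z w : ℍ, F z = F w) : g = 0 := by
  have h0 : HasDerivH F 0 := by
    have hF : F = fun _ => F I := funext fun z => hc z I
    rw [hF]
    exact fun τ => hasDerivAt_const (τ : ℂ) (F I)
  exact eq_of_hasDerivH_left h h0

variable (Γ)

/-- **injectivity of the period map** (maximum principle) -/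
theorem periodLin_injective : Function.Injective (periodLin Γ) := by
  rw [injective_iff_map_eq_zero]
  intro f h
  have hinv : ∀ γ ∈ Γ, ∀ z : ℍ, prim f (γ • z) = prim f z := by
    intro γ hγ z
    have h1 := periodLin_apply' f ⟨γ, hγ⟩ z
    rw [h] at h1
    simp only [AddMonoidHom.zero_apply] at h1
    exact (sub_eq_zero.1 h1.symm)
  have hc : ∀ z w : ℍ, prim f z = prim f w := by
    refine const_of_re_invariant Γ (prim_mdifferentiable f) ?_ (prim_tendsto_smul f)
    intro γ hγ z
    rw [hinv γ hγ z]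
  have h0 : (⇑f : ℍ → ℂ) = 0 := eq_zero_of_hasDerivH_of_const' (prim_hasDerivH f) hc
  ext τ
  exact congrFun h0 τ

/-! ### Finite-dimensionality of `S₂(Γ)` -/

theorem hom_eq_zero_of_closure {G : Type*} [Group G] {S : Set G}
    (hS : Subgroup.closure S = ⊤) (φ : Additive G →+ ℂ)
    (h : ∀ s ∈ S, φ (Additive.ofMul s) = 0) : φ = 0 := by
  refine AddMonoidHom.ext fun g => ?_
  obtain ⟨g, rfl⟩ := Additive.ofMul.surjective g
  have hg : g ∈ Subgroup.closure S := by rw [hS]; trivial
  rw [AddMonoidHom.zero_apply]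
  induction hg using Subgroup.closure_induction with
  | mem x hx => exact h x hx
  | one => exact map_zero φ
  | mul x y _ _ hx hy => rw [ofMul_mul, map_add, hx, hy, add_zero]
  | inv x _ hx => rw [ofMul_inv, map_neg, hx, neg_zero]

theorem groupFG_SL2Z : Group.FG SL(2, ℤ) :=
  Group.fg_iff.2 ⟨{ModularGroup.S, ModularGroup.T}, SpecialLinearGroup.SL2Z_generators,
    Set.toFinite _⟩

theorem groupFG_of_finiteIndex : Group.FG Γ := by
  have := groupFG_SL2Z
  exact Subgroup.fg_of_index_ne_zero (H := Γ)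

/-- evaluation of homomorphisms on a set of elements -/
def evalOn {G : Type*} [Group G] (S : Set G) : (Additive G →+ ℂ) →ₗ[ℂ] (S → ℂ) where
  toFun φ s := φ (Additive.ofMul s.1)
  map_add' φ ψ := by
    funext s
    simp
  map_smul' c φ := by
    funext s
    simp

theorem evalOn_injective {G : Type*} [Group G] {S : Set G} (hS : Subgroup.closure S = ⊤) :
    Function.Injective (evalOn S) := by
  rw [injective_iff_map_eq_zero]
  intro φ h
  refine hom_eq_zero_of_closure hS φ fun s hs => ?_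
  exact congrFun h ⟨s, hs⟩

/-- **`S₂(Γ)` is finite-dimensional** (it embeds into `Hom(Γ, ℂ)` and `Γ` is finitely
generated). -/
theorem finiteDimensional_S2 : FiniteDimensional ℂ (S2 Γ) := by
  obtain ⟨S, hS, hfin⟩ := Group.fg_iff.1 (groupFG_of_finiteIndex Γ)
  have : Finite S := hfin
  exact FiniteDimensional.of_injective ((evalOn S) ∘ₗ periodLin Γ)
    ((evalOn_injective hS).comp (periodLin_injective Γ))

instance instFiniteDimensionalS2 : FiniteDimensional ℂ (S2 Γ) := finiteDimensional_S2 Γ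

/-- the form consumed by the upper blocks -/
theorem finiteDimensional_cuspForm_Gamma1 (M : ℕ) [NeZero M] :
    FiniteDimensional ℂ (CuspForm ((Gamma1 M : Subgroup SL(2, ℤ)) : Subgroup (GL (Fin 2) ℝ)) 2) :=
  finiteDimensional_S2 (Gamma1 M)

end Fermat.Agent.S48lib.X1.Forms
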