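/-
S48lib / X1 / Forms / Lattice (helper7).
The period lattice `Λ = ℤ-span {f ↦ ∫_γ f : γ ∈ Γ}` in the dual of `S₂(Γ)`: it is finitely
generated, separates points, and is stable under every operator given by a system of coset
representatives (`period_eq_sum_of_coset`).  Periods along parabolic elements vanish.
-/
import Mathlib
import Fermat.Agent.S48lib.X1.Forms.Period
import Fermat.Agent.ProgramR.ES.Parabolic
import Fermat.Agent.TeamB.Abstract

set_option autoImplicit false

noncomputable section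

namespace Fermat.Agent.S48lib.X1.Forms

open UpperHalfPlane Filter Topology CongruenceSubgroup Matrix.SpecialLinearGroup
open Fermat.Agent.TeamB Fermat.Agent.ProgramR.ES
open scoped MatrixGroups ModularForm Manifold Pointwise

variable {Γ : Subgroup SL(2, ℤ)} [Γ.FiniteIndex]

/-! ### Sums of primitives -/

theorem hasDerivH_zero' : HasDerivH (0 : ℍ → ℂ) 0 := fun τ => hasDerivAt_const (τ : ℂ) (0 : ℂ)

theorem hasDerivH_finset_sum {ι : Type*} (s : Finset ι) (F g : ι → ℍ → ℂ)
    (h : ∀ x ∈ s, HasDerivH (F x) (g x)) : HasDerivH (∑ x ∈ s, F x) (∑ x ∈ s, g x) := by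
  classical
  induction s using Finset.induction_on with
  | empty => simpa using hasDerivH_zero'
  | insert a s ha ih =>
    rw [Finset.sum_insert ha, Finset.sum_insert ha]
    exact hasDerivH_add (h a (Finset.mem_insert_self a s))
      (ih fun x hx => h x (Finset.mem_insert_of_mem hx))

/-! ### The coset formula -/

/-- **Coset formula.**  If `g = ∑ₓ f ∣[2] βₓ` and `βₓ γ = cₓ β_{σ x}` with `cₓ ∈ Γ`, then
`∫_γ g = ∑ₓ ∫_{cₓ} f`. -/
theorem period_eq_sum_of_coset {ι : Type*} [Fintype ι] (β : ι → GL (Fin 2) ℝ)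
    (hβ : ∀ x, 0 < (β x).det.val) {f g : S2 Γ}
    (hg : (⇑g : ℍ → ℂ) = ∑ x, (⇑f : ℍ → ℂ) ∣[(2 : ℤ)] β x)
    (γ : Γ) (σ : Equiv.Perm ι) (c : ι → Γ)
    (rel : ∀ x, β x * (mapGL ℝ (γ : SL(2, ℤ)) : GL (Fin 2) ℝ) =
      (mapGL ℝ ((c x : Γ) : SL(2, ℤ)) : GL (Fin 2) ℝ) * β (σ x)) :
    period g γ = ∑ x, period f (c x) := by
  set G : ℍ → ℂ := ∑ x, fun z => prim f (β x • z) with hG
  have hGd : HasDerivH G (⇑g) := by
    rw [hg, hG]
    exact hasDerivH_finset_sum _ _ _ fun x _ => hasDerivH_comp_smul (prim_hasDerivH f) (hβ x)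
  have hGz : ∀ z : ℍ, G z = ∑ x, prim f (β x • z) := fun z => by
    rw [hG, Finset.sum_apply]
  have key : ∀ (x : ι) (z : ℍ), prim f (β x • ((γ : SL(2, ℤ)) • z)) =
      prim f (β (σ x) • z) + period f (c x) := by
    intro x z
    have h1 : β x • ((γ : SL(2, ℤ)) • z) = ((c x : Γ) : SL(2, ℤ)) • (β (σ x) • z) := by
      show β x • ((mapGL ℝ (γ : SL(2, ℤ)) : GL (Fin 2) ℝ) • z) =
        (mapGL ℝ ((c x : Γ) : SL(2, ℤ)) : GL (Fin 2) ℝ) • (β (σ x) • z)
      rw [← mul_smul, ← mul_smul, rel x]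
    rw [h1, period_eq f (c x) (β (σ x) • z)]
    ring
  have h2 := sub_const_of_hasDerivH hGd (prim_hasDerivH g) ((γ : SL(2, ℤ)) • I) I
  rw [period_eq g γ I]
  have h3 : G ((γ : SL(2, ℤ)) • I) - G I = ∑ x, period f (c x) := by
    rw [hGz, hGz]
    simp_rw [key]
    rw [Finset.sum_add_distrib, Equiv.sum_comp σ (fun x => prim f (β x • I))]
    ring
  linear_combination h3 - h2

/-! ### The period functionals and the period lattice -/

variable (Γ)

/-- the period along `γ` as a linear functional on `S₂(Γ)` -/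
def perFun (γ : Γ) : Module.Dual ℂ (S2 Γ) where
  toFun f := period f γ
  map_add' f g := by
    have := congrArg (fun φ : Additive Γ →+ ℂ => φ (Additive.ofMul γ)) (map_add (periodLin Γ) f g)
    rw [AddMonoidHom.add_apply, periodLin_apply, periodLin_apply, periodLin_apply] at this
    exact this
  map_smul' c f := by
    have := congrArg (fun φ : Additive Γ →+ ℂ => φ (Additive.ofMul γ)) (map_smul (periodLin Γ) c f)
    rw [AddMonoidHom.smul_apply, periodLin_apply, periodLin_apply] at this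
    exact this

variable {Γ}

@[simp] theorem perFun_apply (γ : Γ) (f : S2 Γ) : perFun Γ γ f = period f γ := rfl

theorem perFun_mul (γ γ' : Γ) : perFun Γ (γ * γ') = perFun Γ γ + perFun Γ γ' := by
  ext f
  simp [period_mul]

theorem perFun_one : perFun Γ 1 = 0 := by
  ext f
  simp [period_one]

theorem perFun_inv (γ : Γ) : perFun Γ γ⁻¹ = -perFun Γ γ := by
  have := perFun_mul γ γ⁻¹
  rw [mul_inv_cancel, perFun_one] at this
  exact eq_neg_of_add_eq_zero_right this.symm

variable (Γ)

/-- **the period lattice** in the dual of `S₂(Γ)` -/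
def periodLattice : Submodule ℤ (Module.Dual ℂ (S2 Γ)) :=
  Submodule.span ℤ (Set.range (perFun Γ))

variable {Γ}

theorem perFun_mem (γ : Γ) : perFun Γ γ ∈ periodLattice Γ :=
  Submodule.subset_span ⟨γ, rfl⟩

theorem perFun_mem_span_of_closure {S : Set Γ} (hS : Subgroup.closure S = ⊤) (γ : Γ) :
    perFun Γ γ ∈ Submodule.span ℤ (perFun Γ '' S) := by
  have hg : γ ∈ Subgroup.closure S := by rw [hS]; trivial
  induction hg using Subgroup.closure_induction with
  | mem x hx => exact Submodule.subset_span ⟨x, hx, rfl⟩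
  | one => rw [perFun_one]; exact Submodule.zero_mem _
  | mul x y _ _ hx hy => rw [perFun_mul]; exact Submodule.add_mem _ hx hy
  | inv x _ hx => rw [perFun_inv]; exact Submodule.neg_mem _ hx

variable (Γ)

theorem periodLattice_fg : (periodLattice Γ).FG := by
  obtain ⟨S, hS, hfin⟩ := Group.fg_iff.1 (groupFG_of_finiteIndex Γ)
  have h : periodLattice Γ = Submodule.span ℤ (perFun Γ '' S) := by
    apply le_antisymm
    · rw [periodLattice, Submodule.span_le]
      rintro _ ⟨γ, rfl⟩
      exact perFun_mem_span_of_closure hS γ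
    · exact Submodule.span_mono (Set.image_subset_range _ _)
  rw [h]
  exact Submodule.fg_span (hfin.image _)

theorem periodLattice_separates (f : S2 Γ) (h : ∀ l ∈ periodLattice Γ, l f = 0) : f = 0 := by
  apply periodLin_injective Γ
  rw [map_zero]
  refine AddMonoidHom.ext fun γ => ?_
  obtain ⟨γ, rfl⟩ := Additive.ofMul.surjective γ
  rw [periodLin_apply, AddMonoidHom.zero_apply]
  exact h _ (perFun_mem γ)

variable {Γ}

/-- **Stability of the period lattice** under an operator given by coset representatives. -/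
theorem comp_mem_periodLattice {T : Module.End ℂ (S2 Γ)} {ι : Type*} [Fintype ι]
    (β : ι → GL (Fin 2) ℝ) (hβ : ∀ x, 0 < (β x).det.val)
    (hT : ∀ f : S2 Γ, (⇑(T f) : ℍ → ℂ) = ∑ x, (⇑f : ℍ → ℂ) ∣[(2 : ℤ)] β x)
    (hrel : ∀ γ : Γ, ∃ (σ : Equiv.Perm ι) (c : ι → Γ), ∀ x,
      β x * (mapGL ℝ (γ : SL(2, ℤ)) : GL (Fin 2) ℝ) =
        (mapGL ℝ ((c x : Γ) : SL(2, ℤ)) : GL (Fin 2) ℝ) * β (σ x)) :
    ∀ l ∈ periodLattice Γ, l ∘ₗ T ∈ periodLattice Γ := by
  intro l hl
  induction hl using Submodule.span_induction with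
  | mem l hl =>
    obtain ⟨γ, rfl⟩ := hl
    obtain ⟨σ, c, rel⟩ := hrel γ
    have : perFun Γ γ ∘ₗ T = ∑ x, perFun Γ (c x) := by
      ext f
      rw [LinearMap.comp_apply, perFun_apply, LinearMap.sum_apply]
      simp only [perFun_apply]
      exact period_eq_sum_of_coset β hβ (hT f) γ σ c rel
    rw [this]
    exact Submodule.sum_mem _ fun x _ => perFun_mem (c x)
  | zero => rw [LinearMap.zero_comp]; exact Submodule.zero_mem _
  | add x y _ _ hx hy => rw [LinearMap.add_comp]; exact Submodule.add_mem _ hx hy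
  | smul n x _ hx => rw [LinearMap.smul_comp]; exact Submodule.smul_mem _ n hx

/-- The `ℤ`-algebra generated by a set of endomorphisms of `S₂(Γ)` preserving the period lattice
is a finitely generated `ℤ`-module. -/
theorem finite_adjoin_of_periodLattice (G : Set (Module.End ℂ (S2 Γ)))
    (hG : ∀ T ∈ G, ∀ l ∈ periodLattice Γ, l ∘ₗ T ∈ periodLattice Γ) :
    Module.Finite ℤ (Algebra.adjoin ℤ G) :=
  finite_adjoin_of_dual_lattice G (periodLattice Γ) (periodLattice_fg Γ)
    (periodLattice_separates Γ) hG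

/-! ### Parabolic elements -/

/-- periods along elements conjugate (in `SL(2, ℤ)`, as transformations of `ℍ`) to a translation
vanish -/
theorem period_eq_zero_of_conj (f : S2 Γ) (γ : Γ) (κ : SL(2, ℤ)) (n : ℤ)
    (key : ∀ w : ℍ, (γ : SL(2, ℤ)) • (κ • w) = κ • ((ModularGroup.T ^ n : SL(2, ℤ)) • w)) :
    period f γ = 0 := by
  obtain ⟨L, hL⟩ := prim_tendsto_smul f κ
  have h1 : ∀ w : ℍ, period f γ =
      prim f (κ • ((ModularGroup.T ^ n : SL(2, ℤ)) • w)) - prim f (κ • w) := fun w => by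
    rw [period_eq f γ (κ • w), key]
  have h2 : Tendsto (fun w : ℍ => prim f (κ • ((ModularGroup.T ^ n : SL(2, ℤ)) • w)) -
      prim f (κ • w)) atImInfty (𝓝 (L - L)) :=
    (hL.comp (tendsto_T_zpow_smul_atImInfty n)).sub hL
  have h3 : Tendsto (fun _ : ℍ => period f γ) atImInfty (𝓝 (L - L)) :=
    h2.congr fun w => (h1 w).symm
  have := tendsto_nhds_unique tendsto_const_nhds h3
  rw [this, sub_self]

/-- **periods along parabolic elements vanish** (trace `±2`) -/
theorem period_eq_zero_of_parabolic (f : S2 Γ) (γ : Γ)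
    (hγ : ((γ : SL(2, ℤ)) : Matrix (Fin 2) (Fin 2) ℤ).trace ^ 2 = 4) : period f γ = 0 := by
  obtain ⟨κ, hκ⟩ := exists_conj_lowerLeft_eq_zero (γ : SL(2, ℤ)) hγ
  obtain ⟨n, hn⟩ := ModularGroup.exists_eq_T_zpow_of_c_eq_zero hκ
  refine period_eq_zero_of_conj f γ κ⁻¹ n fun w => ?_
  rw [← hn w, ← mul_smul, ← mul_smul]
  congr 1
  group

/-- periods along `g T^k g⁻¹ ∈ Γ` vanish -/
theorem period_eq_zero_of_eq_conj_T_zpow (f : S2 Γ) (γ : Γ) (g : SL(2, ℤ)) (k : ℤ)
    (h : (γ : SL(2, ℤ)) = g * ModularGroup.T ^ k * g⁻¹) : period f γ = 0 := by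
  refine period_eq_zero_of_conj f γ g k fun w => ?_
  rw [h, ← mul_smul, ← mul_smul]
  congr 1
  group

theorem period_pow (f : S2 Γ) (γ : Γ) (n : ℕ) : period f (γ ^ n) = n * period f γ := by
  induction n with
  | zero => simp [period_one]
  | succ n ih =>
    rw [pow_succ, period_mul, ih]
    push_cast
    ring

/-- periods along elements of finite order vanish -/
theorem period_eq_zero_of_pow_eq_one (f : S2 Γ) (γ : Γ) {n : ℕ} (hn : n ≠ 0) (h : γ ^ n = 1) :
    period f γ = 0 := by
  have h1 := period_pow f γ n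
  rw [h, period_one] at h1
  have hn' : (n : ℂ) ≠ 0 := Nat.cast_ne_zero.mpr hn
  exact (mul_eq_zero.mp h1.symm).resolve_left hn'

theorem period_inv (f : S2 Γ) (γ : Γ) : period f γ⁻¹ = -period f γ := by
  have := period_mul f γ γ⁻¹
  rw [mul_inv_cancel, period_one] at this
  linear_combination -this

end Fermat.Agent.S48lib.X1.Forms
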