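/-
S48lib / X1 / Forms / Pm (helper7).
Weight 2 cusp forms for `Γ₁(M)` and for `±Γ₁(M)` are the same thing: the linear equivalence
`toPm`, compatible with primitives and periods.
-/
import Mathlib
import Fermat.Agent.S48lib.X1.Forms.Lattice
import Fermat.Agent.S48lib.X1.Wp.Sep

set_option autoImplicit false

noncomputable section

namespace Fermat.Agent.S48lib.X1.Forms

open UpperHalfPlane Filter Topology CongruenceSubgroup Matrix.SpecialLinearGroup
open Fermat.Agent.TeamB Fermat.Agent.ProgramR.ES Fermat.Agent.S48lib.X1.Wp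
open scoped MatrixGroups ModularForm Manifold Pointwise

/-- in even weight the slash action of `-1` is trivial -/
theorem slash_neg_one_two (f : ℍ → ℂ) : f ∣[(2 : ℤ)] (-1 : SL(2, ℤ)) = f := by
  ext τ
  rw [ModularForm.SL_slash_apply]
  have hd : denom ((-1 : SL(2, ℤ)) : GL (Fin 2) ℝ) τ = -1 := by
    simp [denom]
  have hs : ((-1 : SL(2, ℤ))) • τ = τ := by
    ext
    simp
  rw [hs, hd]
  norm_num

theorem slash_neg_two (f : ℍ → ℂ) (γ : SL(2, ℤ)) : f ∣[(2 : ℤ)] (-γ) = f ∣[(2 : ℤ)] γ := by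
  have h : -γ = (-1 : SL(2, ℤ)) * γ := by simp
  rw [h, SlashAction.slash_mul, slash_neg_one_two]

variable {M : ℕ}

theorem mem_Gamma1_or_neg_mem {γ : SL(2, ℤ)} (hγ : γ ∈ pmGamma1 M) :
    γ ∈ Gamma1 M ∨ -γ ∈ Gamma1 M := by
  obtain ⟨hc, hd⟩ := mem_pmGamma1.1 hγ
  have hdet : γ 0 0 * γ 1 1 - γ 0 1 * γ 1 0 = 1 := by
    have h := γ.det_coe
    rwa [Matrix.det_fin_two] at h
  have hdet' := congrArg (Int.cast : ℤ → ZMod M) hdet
  push_cast at hdet'
  rw [hc, mul_zero, sub_zero] at hdet'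
  rcases hd with hd | hd
  · left
    rw [Gamma1_mem]
    refine ⟨?_, hd, hc⟩
    rw [hd, mul_one] at hdet'
    exact hdet'
  · right
    rw [Gamma1_mem]
    refine ⟨?_, ?_, ?_⟩
    · rw [hd] at hdet'
      simp only [coe_neg, Matrix.neg_apply, Int.cast_neg]
      linear_combination hdet'
    · simp only [coe_neg, Matrix.neg_apply, Int.cast_neg, hd, neg_neg]
    · simp only [coe_neg, Matrix.neg_apply, Int.cast_neg, hc, neg_zero]

variable [NeZero M]

theorem isCusp_Gamma1_iff_pm {c : OnePoint ℝ} :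
    IsCusp c ((Gamma1 M : Subgroup SL(2, ℤ)) : Subgroup (GL (Fin 2) ℝ)) ↔
      IsCusp c ((pmGamma1 M : Subgroup SL(2, ℤ)) : Subgroup (GL (Fin 2) ℝ)) := by
  rw [Subgroup.IsArithmetic.isCusp_iff_isCusp_SL2Z,
    Subgroup.IsArithmetic.isCusp_iff_isCusp_SL2Z
      ((pmGamma1 M : Subgroup SL(2, ℤ)) : Subgroup (GL (Fin 2) ℝ))]

variable (M)

/-- a cusp form for `Γ₁(M)` as a cusp form for `±Γ₁(M)` -/
def toPmFun (f : S2 (Gamma1 M)) : S2 (pmGamma1 M) where
  toFun := ⇑f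
  slash_action_eq' := fun A hA => by
    obtain ⟨γ, hγ, rfl⟩ := hA
    rcases mem_Gamma1_or_neg_mem hγ with h | h
    · exact slash_mapGL_eq f h
    · have := slash_mapGL_eq f h
      have e : (⇑f : ℍ → ℂ) ∣[(2 : ℤ)] (mapGL ℝ (-γ) : GL (Fin 2) ℝ) = (⇑f : ℍ → ℂ) ∣[(2 : ℤ)] (-γ) := rfl
      rw [e, slash_neg_two] at this
      exact this
  holo' := CuspFormClass.holo f
  zero_at_cusps' := fun hc => CuspFormClass.zero_at_cusps f (isCusp_Gamma1_iff_pm.2 hc)

/-- a cusp form for `±Γ₁(M)` as a cusp form for `Γ₁(M)` -/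
def ofPmFun (f : S2 (pmGamma1 M)) : S2 (Gamma1 M) where
  toFun := ⇑f
  slash_action_eq' := fun A hA => by
    obtain ⟨γ, hγ, rfl⟩ := hA
    exact slash_mapGL_eq f (Gamma1_le_pmGamma1 M hγ)
  holo' := CuspFormClass.holo f
  zero_at_cusps' := fun hc => CuspFormClass.zero_at_cusps f (isCusp_Gamma1_iff_pm.1 hc)

/-- **`S₂(Γ₁(M)) ≃ S₂(±Γ₁(M))`** -/
def toPm : S2 (Gamma1 M) ≃ₗ[ℂ] S2 (pmGamma1 M) where
  toFun := toPmFun M
  invFun := ofPmFun M
  map_add' f g := by ext τ; rfl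
  map_smul' c f := by ext τ; rfl
  left_inv f := by ext τ; rfl
  right_inv f := by ext τ; rfl

variable {M}

@[simp] theorem coe_toPm (f : S2 (Gamma1 M)) : (⇑(toPm M f) : ℍ → ℂ) = ⇑f := rfl

@[simp] theorem coe_toPm_symm (f : S2 (pmGamma1 M)) : (⇑((toPm M).symm f) : ℍ → ℂ) = ⇑f := rfl

theorem prim_toPm (f : S2 (Gamma1 M)) : prim (toPm M f) = prim f := by
  symm
  refine eq_prim ?_ (prim_tendsto f)
  rw [coe_toPm]
  exact prim_hasDerivH f

theorem period_toPm (f : S2 (Gamma1 M)) (γ : Gamma1 M) :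
    period (toPm M f) ⟨(γ : SL(2, ℤ)), Gamma1_le_pmGamma1 M γ.2⟩ = period f γ := by
  rw [period, period, prim_toPm]

/-- periods of `f` over `±Γ₁(M)`: for `γ ∈ ±Γ₁(M)` the period is that of `±γ ∈ Γ₁(M)`. -/
theorem period_toPm_neg (f : S2 (pmGamma1 M)) (γ : pmGamma1 M) :
    period f ⟨-(γ : SL(2, ℤ)), by
      have : -(γ : SL(2, ℤ)) = (-1 : SL(2, ℤ)) * γ := by simp
      rw [this]
      exact (pmGamma1 M).mul_mem (neg_one_mem_pmGamma1 M) γ.2⟩ = period f γ := by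
  rw [period, period]
  congr 2
  ext
  simp

end Fermat.Agent.S48lib.X1.Forms
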