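/-
S48lib / X1 / Forms / PeriodEigen (helper7).
The period side of the Eichler--Shimura eigen-decomposition for `Γ = ±Γ₁(M)`:
* periods along parabolic / torsion elements vanish;
* the diamond relation `∫_{δγδ⁻¹} g = χ(d_δ) ∫_γ g` for `δ ∈ Γ₀(M)`, `g` of nebentypus `χ`;
* the Hecke relation `∑ₓ ∫_{c_γ(x)} g = χ(p)⁻¹ b_p ∫_γ g` for the standard Hecke transversal
  of `Γ diag(p,1) Γ` (from the slash identity `∑ₓ g ∣ Aₓ = χ(p)⁻¹ b_p g`).
-/
import Mathlib
import Fermat.Agent.S48lib.X1.Forms.Pm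
import Fermat.Agent.S48lib.X1.HeckeJ.PLevelInst
import Fermat.Agent.S48lib.Iface.W2
import Fermat.Agent.S16lib.LG.Shimura

set_option autoImplicit false

noncomputable section

namespace Fermat.Agent.S48lib.X1.Forms

open UpperHalfPlane Filter Topology CongruenceSubgroup Matrix.SpecialLinearGroup
open Fermat.Agent.TeamB Fermat.Agent.ProgramR.ES Fermat.Agent.S48lib.X1.Wp
open Fermat.Agent.S29lib.H
open scoped MatrixGroups ModularForm Manifold Pointwise

/-! ### parabolic and torsion elements -/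

/-- periods along parabolic or torsion elements vanish -/
theorem period_eq_zero_of_isParTor {Γ : Subgroup SL(2, ℤ)} [Γ.FiniteIndex] (f : S2 Γ) (γ : Γ)
    (h : Fermat.Agent.S16lib.LG.IsParTor (γ : SL(2, ℤ))) : period f γ = 0 := by
  rcases h with h | h
  · exact period_eq_zero_of_parabolic f γ h
  · refine period_eq_zero_of_pow_eq_one f γ (n := 12) (by norm_num) ?_
    apply Subtype.ext
    rw [Subgroup.coe_pow, h, Subgroup.coe_one]

theorem period_smul {Γ : Subgroup SL(2, ℤ)} [Γ.FiniteIndex] (c : ℂ) (f : S2 Γ) (γ : Γ) :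
    period (c • f) γ = c * period f γ := by
  rw [period, period, prim_smul]
  simp only [Pi.smul_apply, smul_eq_mul]
  ring

/-! ### the diamond relation -/

/-- `Γ₀(M)` normalises `±Γ₁(M)` -/
theorem conj_mem_pmGamma1_of_mem_Gamma0 {M : ℕ} {δ γ : SL(2, ℤ)} (hδ : δ ∈ Gamma0 M)
    (hγ : γ ∈ pmGamma1 M) : δ * γ * δ⁻¹ ∈ pmGamma1 M := by
  rw [mem_pmGamma1] at hγ ⊢
  obtain ⟨hc, hd⟩ := hγ
  rw [Gamma0_mem] at hδ
  have hdet : δ 0 0 * δ 1 1 - δ 0 1 * δ 1 0 = 1 := by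
    have h := δ.det_coe
    rwa [Matrix.det_fin_two] at h
  have hdet' := congrArg (Int.cast : ℤ → ZMod M) hdet
  push_cast at hdet'
  rw [hδ, mul_zero, sub_zero] at hdet'
  have e10 : (δ * γ * δ⁻¹) 1 0 =
      (δ 1 0 * γ 0 0 + δ 1 1 * γ 1 0) * δ 1 1 - (δ 1 0 * γ 0 1 + δ 1 1 * γ 1 1) * δ 1 0 := by
    simp only [Matrix.SpecialLinearGroup.coe_mul, Matrix.SpecialLinearGroup.coe_inv,
      Matrix.adjugate_fin_two, Matrix.mul_apply, Fin.sum_univ_two, Matrix.of_apply,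
      Matrix.cons_val', Matrix.cons_val_zero, Matrix.cons_val_one, Matrix.cons_val_fin_one]
    ring
  have e11 : (δ * γ * δ⁻¹) 1 1 =
      -(δ 1 0 * γ 0 0 + δ 1 1 * γ 1 0) * δ 0 1 + (δ 1 0 * γ 0 1 + δ 1 1 * γ 1 1) * δ 0 0 := by
    simp only [Matrix.SpecialLinearGroup.coe_mul, Matrix.SpecialLinearGroup.coe_inv,
      Matrix.adjugate_fin_two, Matrix.mul_apply, Fin.sum_univ_two, Matrix.of_apply,
      Matrix.cons_val', Matrix.cons_val_zero, Matrix.cons_val_one, Matrix.cons_val_fin_one]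
    ring
  refine ⟨?_, ?_⟩
  · rw [e10]
    push_cast
    rw [hδ, hc]
    ring
  · rw [e11]
    push_cast
    rw [hδ, hc]
    rcases hd with hd | hd
    · left
      rw [hd]
      linear_combination hdet'
    · right
      rw [hd]
      linear_combination -hdet'

theorem period_conj_of_nebentypus {M : ℕ} [NeZero M] {χ : DirichletCharacter ℂ M}
    {g : CuspForm (Gamma1 M) 2} (hχ : Fermat.Agent.S48lib.Iface.HasNebentypus g χ)
    {δ : SL(2, ℤ)} (hδ : δ ∈ Gamma0 M) (γ : pmGamma1 M)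
    (hmem : δ * (γ : SL(2, ℤ)) * δ⁻¹ ∈ pmGamma1 M) :
    period (toPm M g) ⟨δ * (γ : SL(2, ℤ)) * δ⁻¹, hmem⟩ =
      χ (((δ 1 1 : ℤ)) : ZMod M) * period (toPm M g) γ := by
  have hsl := hχ δ hδ
  have key := period_eq_sum_of_coset (Γ := pmGamma1 M) (ι := Unit)
    (fun _ => (mapGL ℝ δ : GL (Fin 2) ℝ)) (fun _ => by simp)
    (f := toPm M g) (g := χ (((δ 1 1 : ℤ)) : ZMod M) • toPm M g)
    (by
      rw [Finset.univ_unique, Finset.sum_singleton, coe_toPm]
      rw [FunLike.coe_smul, coe_toPm]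
      exact hsl.symm)
    γ 1 (fun _ => ⟨δ * (γ : SL(2, ℤ)) * δ⁻¹, hmem⟩)
    (fun _ => by
      rw [← map_mul, ← map_mul]
      congr 1
      simp)
  rw [period_smul] at key
  rw [key, Finset.univ_unique, Finset.sum_singleton]

/-! ### the Hecke relation -/

/-- **the Hecke relation on periods**, from the slash identity for the standard transversal. -/
theorem sum_period_stdTransversal_of_slash {M : ℕ} [NeZero M] {p : ℕ} [Fact p.Prime]
    (hpM : ¬ p ∣ M) {g : CuspForm (Gamma1 M) 2} {c : ℂ}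
    (hsl : ∑ x : OnePoint (ZMod p), (⇑g : ℍ → ℂ) ∣[(2 : ℤ)]
        ((Fermat.Agent.S48lib.X1.HeckeJ.pLevel_pmGamma1 hpM).stdTransversal.A x) =
      c • (⇑g : ℍ → ℂ)) (γ : pmGamma1 M) :
    ∑ x : OnePoint (ZMod p), period (toPm M g)
        ((Fermat.Agent.S48lib.X1.HeckeJ.pLevel_pmGamma1 hpM).stdTransversal.c γ x) =
      c * period (toPm M g) γ := by
  set 𝒯 := (Fermat.Agent.S48lib.X1.HeckeJ.pLevel_pmGamma1 hpM).stdTransversal with h𝒯
  have key := period_eq_sum_of_coset (Γ := pmGamma1 M) 𝒯.A (fun x => (𝒯.isInt x).det_pos)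
    (f := toPm M g) (g := c • toPm M g)
    (by
      rw [FunLike.coe_smul, coe_toPm]
      exact hsl.symm)
    γ (𝒯.σ γ) (𝒯.c γ) (𝒯.rel γ)
  rw [period_smul] at key
  exact key.symm

end Fermat.Agent.S48lib.X1.Forms
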