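/-
S48lib / X1 / Forms / PeriodEigenSL (helper7).
The Hecke relation on periods, unconditionally: for `g ∈ S₂(Γ₁(M))` with nebentypus `χ` and
`T_p`-eigenvalues `b_p` (`p ∤ M`),
`∑ₓ ∫_{c_γ(x)} g = χ(p)⁻¹ b_p ∫_γ g` for the standard Hecke transversal of `±Γ₁(M)`.
(`PeriodEigen.sum_period_stdTransversal_of_slash` + helper1's `W1.sum_slash_stdTransversal`.)
-/
import Mathlib
import Fermat.Agent.S48lib.X1.Forms.PeriodEigen
import Fermat.Agent.S48lib.W1.SlashSum

set_option autoImplicit false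

noncomputable section

namespace Fermat.Agent.S48lib.X1.Forms

open UpperHalfPlane CongruenceSubgroup Matrix.SpecialLinearGroup
open Fermat.Agent.S48lib.X1.Wp Fermat.Agent.S29lib.H
open scoped MatrixGroups ModularForm

theorem sum_period_stdTransversal {M : ℕ} [NeZero M] {p : ℕ} [Fact p.Prime] (hpM : ¬ p ∣ M)
    {χ : DirichletCharacter ℂ M} {g : CuspForm (Gamma1 M) 2} {b : ℕ → ℂ}
    (hχ : Fermat.Agent.S48lib.Iface.HasNebentypus g χ)
    (hb : Fermat.Agent.S48lib.Iface.IsHeckeEigenAway g χ b) (γ : pmGamma1 M) :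
    ∑ x : OnePoint (ZMod p), period (toPm M g)
        ((Fermat.Agent.S48lib.X1.HeckeJ.pLevel_pmGamma1 hpM).stdTransversal.c γ x) =
      (χ (p : ZMod M))⁻¹ * b p * period (toPm M g) γ :=
  sum_period_stdTransversal_of_slash hpM
    (Fermat.Agent.S48lib.W1.sum_slash_stdTransversal hpM hχ hb) γ

end Fermat.Agent.S48lib.X1.Forms
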