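/-
S48lib / X1 / Forms / CuspData (helper7).
The algebraic conditions on `U ∈ WH0 (±Γ₁(M))` which characterise the functions
`U = f · E₄E₆/Δ`, `f ∈ S₂(Γ₁(M))`:
* `U³ = j · V₁` and `U² = (j - 1728) · V₂` in `WH0 (±Γ₁(M))` (`f` is holomorphic at the zeros of
  `E₄`, `E₆`);
* `U` is a root of a monic `Q ∈ ℂ[j][Y]` whose coefficient of `Y^i` has degree `< deg Q - i` in `j`
  (`f` vanishes at all cusps).
Both are visibly stable under semilinear endomorphisms fixing `j`.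
Interface between `Forms/CuspLift` (helper1: `DownStmt`, `UpStmt`) and `Forms/Stab` (helper7).
-/
import Mathlib
import Fermat.Agent.S48lib.X1.Forms.Period
import Fermat.Agent.S48lib.X1.Wp.Sep

set_option autoImplicit false

noncomputable section

namespace Fermat.Agent.S48lib.X1.Forms

open Polynomial CongruenceSubgroup UpperHalfPlane
open Fermat.Agent.ProgramR Fermat.Agent.S48lib.X1.Wp
open scoped MatrixGroups

local notation "Δ" => ModularForm.discriminant

/-- the algebraic conditions characterising `U = f · E₄E₆/Δ` with `f` a cusp form of weight 2 -/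
structure CuspData (M : ℕ) (U : WH0 (pmGamma1 M)) : Prop where
  e4 : ∃ V₁ : WH0 (pmGamma1 M), U ^ 3 = WH0.j (pmGamma1 M) * V₁
  e6 : ∃ V₂ : WH0 (pmGamma1 M),
    U ^ 2 = (WH0.j (pmGamma1 M) - algebraMap ℂ (WH0 (pmGamma1 M)) 1728) * V₂
  poly : ∃ Q : ℂ[X][X], Q.Monic ∧ Polynomial.aeval U Q = 0 ∧
    ∀ i : ℕ, i < Q.natDegree → (Q.coeff i).natDegree + i < Q.natDegree

/-- **(B1, down)**: every cusp form `f` gives `u = f E₄E₆/Δ` with `CuspData`. -/
def DownStmt (M : ℕ) : Prop :=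
  ∀ f : S2 (Gamma1 M), ∃ u : WH0 (pmGamma1 M),
    (∀ τ : ℍ, u.1 τ * Δ τ = f τ * (ModularForm.E₄ τ * ModularForm.E₆ τ)) ∧ CuspData M u

/-- **(B2, up)**: every `U` with `CuspData` is `G E₄E₆/Δ` for a cusp form `G`. -/
def UpStmt (M : ℕ) : Prop :=
  ∀ U : WH0 (pmGamma1 M), CuspData M U → ∃ G : S2 (Gamma1 M),
    ∀ τ : ℍ, G τ * (ModularForm.E₄ τ * ModularForm.E₆ τ) = U.1 τ * Δ τ

end Fermat.Agent.S48lib.X1.Forms
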