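/-
S48lib / X1 / Forms / CuspLift (helper1).
Weight 2 cusp forms for `Γ` versus weight 0 modular functions: `f ↦ U = f E₄ E₆ / Δ ∈ WH0 Γ`.
The image is characterised by conditions which are visibly stable under semilinear ring
homomorphisms of `WH0 Γ` fixing `j` (`IsCuspLift`, `IsCuspLift.map`):
* `U³ = j V₁`, `U² = (j - 1728) V₂` with `V₁ V₂ ∈ WH0 Γ`   (divisibility by `E₄ E₆` in `Hol`);
* `U` is a root of a monic `Q ∈ ℂ[j][T]` of degree `n` whose coefficient of `T^i` has degree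
  `< n - i` in `j`   (vanishing at the cusps: `U(g z) Δ(z) → 0` for all `g ∈ SL(2, ℤ)`).
`exists_isCuspLift` (down) and `IsCuspLift.exists_cuspForm` (up).
-/
import Mathlib
import Fermat.Agent.S48lib.X1.Forms.Period
import Fermat.Agent.S48lib.Conj.Div
import Fermat.Agent.ProgramR.Analytic.WH0Ring
import Fermat.Agent.ProgramR.Analytic.Division

set_option autoImplicit false

noncomputable section

namespace Fermat.Agent.S48lib.X1.Forms

open UpperHalfPlane Filter Topology CongruenceSubgroup Matrix.SpecialLinearGroup ModularForm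
open Fermat.Agent.ProgramR Fermat.Agent.ProgramR.LevelOne
open scoped MatrixGroups ModularForm Manifold Polynomial

local notation "Δ" => ModularForm.discriminant

/-! ### Polynomials in `j` at `i∞` -/

/-- `P(j) Δ^d → (coefficient of X^d in P)` at `i∞` when `deg P ≤ d`. -/
theorem tendsto_eval_jInv_mul_pow (P : ℂ[X]) {d : ℕ} (hd : P.natDegree ≤ d) :
    Tendsto (fun z : ℍ => P.eval (jInv z) * Δ z ^ d) atImInfty (𝓝 (P.coeff d)) := by
  have h1 : ∀ z : ℍ, P.eval (jInv z) * Δ z ^ d =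
      ∑ k ∈ Finset.range (d + 1), P.coeff k * (E₄ z ^ 3) ^ k * Δ z ^ (d - k) := by
    intro z
    rw [Polynomial.eval_eq_sum_range' (Nat.lt_succ_of_le hd), Finset.sum_mul]
    refine Finset.sum_congr rfl fun k hk => ?_
    have hk' : k ≤ d := Nat.lt_succ_iff.mp (Finset.mem_range.mp hk)
    rw [← jInv_mul_discriminant', mul_pow, mul_assoc, mul_assoc, mul_assoc, ← pow_add,
      Nat.add_sub_cancel' hk']
  have h2 : Tendsto (fun z : ℍ => ∑ k ∈ Finset.range (d + 1),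
      P.coeff k * (E₄ z ^ 3) ^ k * Δ z ^ (d - k)) atImInfty
      (𝓝 (∑ k ∈ Finset.range (d + 1), P.coeff k * ((1 : ℂ) ^ 3) ^ k * (0 : ℂ) ^ (d - k))) := by
    refine tendsto_finsetSum _ fun k _ => ?_
    exact ((tendsto_const_nhds.mul ((tendsto_E₄_atImInfty.pow 3).pow k)).mul
      (tendsto_discriminant_atImInfty.pow (d - k)))
  have h3 : (∑ k ∈ Finset.range (d + 1), P.coeff k * ((1 : ℂ) ^ 3) ^ k * (0 : ℂ) ^ (d - k)) =
      P.coeff d := by
    rw [Finset.sum_eq_single d]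
    · simp
    · intro k hk hkd
      have hk' : k ≤ d := Nat.lt_succ_iff.mp (Finset.mem_range.mp hk)
      have : d - k ≠ 0 := by omega
      rw [zero_pow this, mul_zero]
    · intro h
      exact absurd (Finset.mem_range.mpr (Nat.lt_succ_self d)) h
  rw [← h3]
  exact h2.congr fun z => (h1 z).symm

/-- `P(j) Δ^m → 0` at `i∞` when `deg P < m`. -/
theorem tendsto_eval_jInv_mul_pow_zero (P : ℂ[X]) {m : ℕ} (hm : P.natDegree + 1 ≤ m) :
    Tendsto (fun z : ℍ => P.eval (jInv z) * Δ z ^ m) atImInfty (𝓝 0) := by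
  have h := tendsto_eval_jInv_mul_pow P (d := m) (by omega)
  rwa [Polynomial.coeff_eq_zero_of_natDegree_lt (by omega)] at h

/-- conversely, `P(j) Δ^m → 0` at `i∞` (`m ≥ 1`) forces `deg P < m`. -/
theorem natDegree_lt_of_tendsto_jInv (P : ℂ[X]) {m : ℕ} (hm : 1 ≤ m)
    (h : Tendsto (fun z : ℍ => P.eval (jInv z) * Δ z ^ m) atImInfty (𝓝 0)) :
    P.natDegree + 1 ≤ m := by
  by_contra hlt
  have hd : m ≤ P.natDegree := by omega
  have h1 := tendsto_eval_jInv_mul_pow P (d := P.natDegree) le_rfl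
  have h2 : Tendsto (fun z : ℍ => P.eval (jInv z) * Δ z ^ m * Δ z ^ (P.natDegree - m)) atImInfty
      (𝓝 (0 * (0 : ℂ) ^ (P.natDegree - m))) :=
    h.mul (tendsto_discriminant_atImInfty.pow _)
  rw [zero_mul] at h2
  have h3 : (fun z : ℍ => P.eval (jInv z) * Δ z ^ m * Δ z ^ (P.natDegree - m)) =
      fun z : ℍ => P.eval (jInv z) * Δ z ^ P.natDegree := by
    funext z
    rw [mul_assoc, ← pow_add, Nat.add_sub_cancel' hd]
  rw [h3] at h2
  have h4 : P.coeff P.natDegree = 0 := tendsto_nhds_unique h1 h2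
  have h5 : P = 0 := Polynomial.leadingCoeff_eq_zero.mp h4
  rw [h5, Polynomial.natDegree_zero] at hd
  omega

/-! ### A root bound -/

/-- a root of a monic polynomial with small lower coefficients is small -/
theorem norm_le_of_monic_root_small (w : ℂ) (n : ℕ) (a : ℕ → ℂ)
    (h : w ^ n + ∑ i ∈ Finset.range n, a i * w ^ i = 0) {ε : ℝ} (hε : 0 < ε) (hε1 : ε ≤ 1)
    (hS : ∑ i ∈ Finset.range n, ‖a i‖ < ε ^ n) : ‖w‖ ≤ ε := by
  by_contra hw
  rw [not_le] at hw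
  have hw0 : 0 < ‖w‖ := hε.trans hw
  have h1 : w ^ n = -∑ i ∈ Finset.range n, a i * w ^ i := eq_neg_of_add_eq_zero_left h
  have h2 : ‖w‖ ^ n ≤ ∑ i ∈ Finset.range n, ‖a i‖ * ‖w‖ ^ i := by
    calc ‖w‖ ^ n = ‖w ^ n‖ := (norm_pow w n).symm
      _ = ‖∑ i ∈ Finset.range n, a i * w ^ i‖ := by rw [h1, norm_neg]
      _ ≤ ∑ i ∈ Finset.range n, ‖a i * w ^ i‖ := norm_sum_le _ _
      _ = ∑ i ∈ Finset.range n, ‖a i‖ * ‖w‖ ^ i := by
        refine Finset.sum_congr rfl fun i _ => ?_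
        rw [norm_mul, norm_pow]
  have h3 : ∀ i ∈ Finset.range n, ‖w‖ ^ i * ε ^ n ≤ ‖w‖ ^ n := by
    intro i hi
    have hi' : i ≤ n := (Finset.mem_range.mp hi).le
    calc ‖w‖ ^ i * ε ^ n ≤ ‖w‖ ^ i * ε ^ (n - i) := by
          apply mul_le_mul_of_nonneg_left _ (pow_nonneg hw0.le _)
          exact pow_le_pow_of_le_one hε.le hε1 (Nat.sub_le n i)
      _ ≤ ‖w‖ ^ i * ‖w‖ ^ (n - i) := by
          apply mul_le_mul_of_nonneg_left _ (pow_nonneg hw0.le _)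
          exact pow_le_pow_left₀ hε.le hw.le _
      _ = ‖w‖ ^ n := by rw [← pow_add, Nat.add_sub_cancel' hi']
  have h4 : ‖w‖ ^ n * ε ^ n ≤ (∑ i ∈ Finset.range n, ‖a i‖) * ‖w‖ ^ n := by
    calc ‖w‖ ^ n * ε ^ n ≤ (∑ i ∈ Finset.range n, ‖a i‖ * ‖w‖ ^ i) * ε ^ n :=
          mul_le_mul_of_nonneg_right h2 (pow_nonneg hε.le _)
      _ = ∑ i ∈ Finset.range n, ‖a i‖ * (‖w‖ ^ i * ε ^ n) := by
          rw [Finset.sum_mul]
          exact Finset.sum_congr rfl fun i _ => mul_assoc _ _ _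
      _ ≤ ∑ i ∈ Finset.range n, ‖a i‖ * ‖w‖ ^ n :=
          Finset.sum_le_sum fun i hi => mul_le_mul_of_nonneg_left (h3 i hi) (norm_nonneg _)
      _ = (∑ i ∈ Finset.range n, ‖a i‖) * ‖w‖ ^ n := (Finset.sum_mul _ _ _).symm
  have h5 : (∑ i ∈ Finset.range n, ‖a i‖) * ‖w‖ ^ n < ε ^ n * ‖w‖ ^ n :=
    mul_lt_mul_of_pos_right hS (pow_pos hw0 n)
  linarith [mul_comm (‖w‖ ^ n) (ε ^ n)]

variable {Γ : Subgroup SL(2, ℤ)}

/-! ### Pointwise form of an algebraic relation over `ℂ[j]` -/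

/-- evaluation at a point of `ℍ` as a ring homomorphism on `WH0 Γ` -/
def wh0Eval (Γ : Subgroup SL(2, ℤ)) (w : ℍ) : WH0 Γ →+* ℂ :=
  (Pi.evalRingHom (fun _ : ℍ => ℂ) w).comp (WH0 Γ).val.toRingHom

@[simp] theorem wh0Eval_apply (w : ℍ) (h : WH0 Γ) : wh0Eval Γ w h = h.1 w := rfl

theorem wh0Eval_comp_algebraMap (w : ℍ) :
    (wh0Eval Γ w).comp (algebraMap ℂ[X] (WH0 Γ)) = Polynomial.evalRingHom (jInv w) := by
  refine RingHom.ext fun p => ?_
  rw [RingHom.comp_apply, wh0Eval_apply, WH0.algebraMap_poly_apply]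
  rfl

theorem wh0_aeval_apply (U : WH0 Γ) (Q : ℂ[X][X]) (w : ℍ) :
    (Polynomial.aeval U Q).1 w = (Q.map (Polynomial.evalRingHom (jInv w))).eval (U.1 w) := by
  rw [← wh0Eval_apply w (Polynomial.aeval U Q), Polynomial.aeval_def, Polynomial.hom_eval₂,
    wh0Eval_comp_algebraMap, Polynomial.eval_map, wh0Eval_apply]

/-- a monic relation for `U` over `ℂ[j]`, at the point `g z`, scaled by `Δ(z)` -/
theorem wh0_scaled_relation {U : WH0 Γ} {Q : ℂ[X][X]} (hQ : Q.Monic)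
    (hroot : Polynomial.aeval U Q = 0) (g : SL(2, ℤ)) (z : ℍ) :
    (U.1 (g • z) * Δ z) ^ Q.natDegree + ∑ i ∈ Finset.range Q.natDegree,
      ((Q.coeff i).eval (jInv z) * Δ z ^ (Q.natDegree - i)) * (U.1 (g • z) * Δ z) ^ i = 0 := by
  set n := Q.natDegree with hn
  have h1 := wh0_aeval_apply U Q (g • z)
  rw [hroot, jInv_smul] at h1
  have hQz : (Q.map (Polynomial.evalRingHom (jInv z))).natDegree = n :=
    hQ.natDegree_map _
  rw [Polynomial.eval_eq_sum_range, hQz, Finset.sum_range_succ] at h1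
  have hlead : (Q.map (Polynomial.evalRingHom (jInv z))).coeff n = 1 := by
    have := (hQ.map (Polynomial.evalRingHom (jInv z)))
    rw [← hQz]
    exact this
  rw [hlead, one_mul] at h1
  have h2 : (0 : ℂ) = (∑ i ∈ Finset.range n,
      (Q.map (Polynomial.evalRingHom (jInv z))).coeff i * U.1 (g • z) ^ i + U.1 (g • z) ^ n) *
        Δ z ^ n := by
    rw [← h1]
    exact (zero_mul _).symm
  rw [add_mul, Finset.sum_mul] at h2
  rw [mul_pow, add_comm]
  rw [h2]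
  congr 1
  refine Finset.sum_congr rfl fun i hi => ?_
  have hi' : i ≤ n := (Finset.mem_range.mp hi).le
  rw [Polynomial.coeff_map, Polynomial.coe_evalRingHom, mul_pow]
  have : Δ z ^ n = Δ z ^ (n - i) * Δ z ^ i := by rw [← pow_add, Nat.sub_add_cancel hi']
  rw [this]
  ring

/-- **the cusp estimate**: if `U` is a root of a monic polynomial over `ℂ[j]` whose coefficient of
`T^i` has `j`-degree `< n - i`, then `U(g z) Δ(z) → 0` at `i∞` for every `g ∈ SL(2, ℤ)`. -/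
theorem tendsto_translate_mul_discriminant {U : WH0 Γ} {Q : ℂ[X][X]} (hQ : Q.Monic)
    (hroot : Polynomial.aeval U Q = 0)
    (hdeg : ∀ i, i < Q.natDegree → (Q.coeff i).natDegree + i + 1 ≤ Q.natDegree)
    (g : SL(2, ℤ)) :
    Tendsto (fun z : ℍ => U.1 (g • z) * Δ z) atImInfty (𝓝 0) := by
  set n := Q.natDegree with hn
  have hS : Tendsto (fun z : ℍ => ∑ i ∈ Finset.range n,
      ‖(Q.coeff i).eval (jInv z) * Δ z ^ (n - i)‖) atImInfty (𝓝 0) := by
    have : (0 : ℝ) = ∑ i ∈ Finset.range n, (0 : ℝ) := by simp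
    rw [this]
    refine tendsto_finsetSum _ fun i hi => ?_
    have hi' : i < n := Finset.mem_range.mp hi
    have h1 := tendsto_eval_jInv_mul_pow_zero (Q.coeff i) (m := n - i) (by
      have := hdeg i hi'
      omega)
    have h2 := h1.norm
    rwa [norm_zero] at h2
  rw [Metric.tendsto_nhds]
  intro ε hε
  set ε' : ℝ := min (ε / 2) 1 with hε'
  have hε'0 : 0 < ε' := lt_min (half_pos hε) one_pos
  have hε'1 : ε' ≤ 1 := min_le_right _ _
  have hε'2 : ε' < ε := lt_of_le_of_lt (min_le_left _ _) (half_lt_self hε)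
  have hev : ∀ᶠ z in atImInfty, ∑ i ∈ Finset.range n,
      ‖(Q.coeff i).eval (jInv z) * Δ z ^ (n - i)‖ < ε' ^ n :=
    (tendsto_order.mp hS).2 _ (pow_pos hε'0 n)
  filter_upwards [hev] with z hz
  rw [dist_zero_right]
  refine lt_of_le_of_lt ?_ hε'2
  exact norm_le_of_monic_root_small _ n
    (fun i => (Q.coeff i).eval (jInv z) * Δ z ^ (n - i)) (wh0_scaled_relation hQ hroot g z)
    hε'0 hε'1 hz

/-- `U ∈ WH0 Γ` is of the form `f E₄ E₆ / Δ` for a weight 2 cusp form `f` (see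
`exists_isCuspLift`, `IsCuspLift.exists_cuspForm`). -/
def IsCuspLift (U : WH0 Γ) : Prop :=
  (∃ V₁ : WH0 Γ, U ^ 3 = WH0.j Γ * V₁) ∧
  (∃ V₂ : WH0 Γ, U ^ 2 = (WH0.j Γ - 1728) * V₂) ∧
  ∃ Q : ℂ[X][X], Q.Monic ∧ Polynomial.aeval U Q = 0 ∧
    ∀ i, i < Q.natDegree → (Q.coeff i).natDegree + i + 1 ≤ Q.natDegree

/-! ### Divisibility by `E₄ E₆` in `Hol` -/

/-- `E₄` as an element of `Hol` -/
def holE4 : Hol := ⟨E₄, E₄.holo'⟩
/-- `E₆` as an element of `Hol` -/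
def holE6 : Hol := ⟨E₆, E₆.holo'⟩
/-- `Δ` as an element of `Hol` -/
def holDisc : Hol := ⟨Δ, CuspForm.discriminant.holo'⟩

@[simp] theorem holE4_apply (z : ℍ) : (holE4 : ℍ → ℂ) z = E₄ z := rfl
@[simp] theorem holE6_apply (z : ℍ) : (holE6 : ℍ → ℂ) z = E₆ z := rfl
@[simp] theorem holDisc_apply (z : ℍ) : (holDisc : ℍ → ℂ) z = Δ z := rfl

theorem E₄_ne_zero_or_E₆_ne_zero (z : ℍ) : E₄ z ≠ 0 ∨ E₆ z ≠ 0 := by
  by_contra h
  push Not at h
  have := discriminant_eq_E₄_cube_sub_E₆_sq z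
  rw [h.1, h.2] at this
  exact discriminant_ne_zero z (by rw [this]; norm_num)

theorem enat_le_of_nsmul_le {n : ℕ} (hn : n ≠ 0) {x y : ℕ∞} (h : n • x ≤ n • y) : x ≤ y := by
  induction y using ENat.recTopCoe with
  | top => exact le_top
  | coe b =>
    induction x using ENat.recTopCoe with
    | top =>
      exfalso
      rw [nsmul_eq_mul, nsmul_eq_mul, ENat.mul_top (by exact_mod_cast hn)] at h
      have : ((n : ℕ∞) * (b : ℕ∞)) = ((n * b : ℕ) : ℕ∞) := by push_cast; rfl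
      rw [this] at h
      exact absurd (top_le_iff.mp h) (ENat.natCast_ne_top _)
    | coe a =>
      rw [nsmul_eq_mul, nsmul_eq_mul] at h
      have h' : ((n * a : ℕ) : ℕ∞) ≤ ((n * b : ℕ) : ℕ∞) := by push_cast; exact h
      have h'' : n * a ≤ n * b := by exact_mod_cast h'
      exact_mod_cast Nat.le_of_mul_le_mul_left h'' (Nat.pos_of_ne_zero hn)

theorem holE4_ne_zero : holE4 ≠ 0 := by
  intro h
  have h1 : Tendsto (fun z : ℍ => (holE4 : ℍ → ℂ) z) atImInfty (𝓝 1) := tendsto_E₄_atImInfty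
  rw [h] at h1
  have h2 : Tendsto (fun _ : ℍ => (0 : ℂ)) atImInfty (𝓝 1) := h1
  exact zero_ne_one (tendsto_nhds_unique tendsto_const_nhds h2)

theorem holE6_ne_zero : holE6 ≠ 0 := by
  intro h
  have h1 : Tendsto (fun z : ℍ => (holE6 : ℍ → ℂ) z) atImInfty (𝓝 1) := tendsto_E₆_atImInfty
  rw [h] at h1
  have h2 : Tendsto (fun _ : ℍ => (0 : ℂ)) atImInfty (𝓝 1) := h1
  exact zero_ne_one (tendsto_nhds_unique tendsto_const_nhds h2)

/-- `E₄ E₆ ∣ U Δ` in `Hol` if `U³ ∈ j·Hol`-ish and `U² ∈ (j - 1728)·Hol`-ish. -/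
theorem exists_hol_mul_eq {a w₁ w₂ : Hol} (h1 : a ^ 3 = holE4 ^ 3 * w₁)
    (h2 : a ^ 2 = holE6 ^ 2 * w₂) : ∃ c : Hol, a = holE4 * holE6 * c := by
  have hne : holE4 * holE6 ≠ 0 := mul_ne_zero holE4_ne_zero holE6_ne_zero
  refine Hol.dvd_of_forall_ordAt_le hne fun z => ?_
  have o1 : Hol.ordAt z holE4 ≤ Hol.ordAt z a := by
    apply enat_le_of_nsmul_le (n := 3) (by norm_num)
    rw [← Hol.ordAt_pow, ← Hol.ordAt_pow, h1, Hol.ordAt_mul]
    exact le_self_add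
  have o2 : Hol.ordAt z holE6 ≤ Hol.ordAt z a := by
    apply enat_le_of_nsmul_le (n := 2) (by norm_num)
    rw [← Hol.ordAt_pow, ← Hol.ordAt_pow, h2, Hol.ordAt_mul]
    exact le_self_add
  rw [Hol.ordAt_mul]
  rcases E₄_ne_zero_or_E₆_ne_zero z with h | h
  · rw [(Hol.ordAt_eq_zero_iff z holE4).mpr h, zero_add]
    exact o2
  · rw [(Hol.ordAt_eq_zero_iff z holE6).mpr h, add_zero]
    exact o1

theorem E₄_mul_E₆_ne_zero : (fun z : ℍ => E₄ z * E₆ z) ≠ 0 := by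
  intro h
  have h1 : Tendsto (fun z : ℍ => E₄ z * E₆ z) atImInfty (𝓝 (1 * 1)) :=
    tendsto_E₄_atImInfty.mul tendsto_E₆_atImInfty
  rw [h, one_mul] at h1
  have h2 : Tendsto (fun _ : ℍ => (0 : ℂ)) atImInfty (𝓝 1) := h1
  exact zero_ne_one (tendsto_nhds_unique tendsto_const_nhds h2)

theorem mdiff_E₄_mul_E₆ : MDiff (fun z : ℍ => E₄ z * E₆ z) := E₄.holo'.mul E₆.holo'

/-- the slash of a quotient by `E₄ E₆`: if `G E₄ E₆ = u Δ` then `(G ∣[2] g) E₄ E₆ = (u ∘ g) Δ`. -/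
theorem slash_two_mul_eq {G u : ℍ → ℂ} (h : ∀ z : ℍ, G z * (E₄ z * E₆ z) = u z * Δ z)
    (g : SL(2, ℤ)) (z : ℍ) :
    (G ∣[(2 : ℤ)] g) z * (E₄ z * E₆ z) = u (g • z) * Δ z := by
  have hD : denom g z ≠ 0 := denom_ne_zero _ _
  have key := h (g • z)
  rw [E₄_smul, E₆_smul, discriminant_smul] at key
  rw [SL_slash_apply]
  have e4 : denom g z ^ (4 : ℤ) = denom g z ^ 4 := zpow_ofNat _ 4
  have e6 : denom g z ^ (6 : ℤ) = denom g z ^ 6 := zpow_ofNat _ 6
  have e12 : denom g z ^ (12 : ℤ) = denom g z ^ 12 := zpow_ofNat _ 12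
  have e2 : denom g z ^ (-(2 : ℤ)) = (denom g z ^ 2)⁻¹ := by
    rw [zpow_neg]; congr 1
  rw [e4, e6, e12] at key
  rw [e2]
  have hD2 : denom g z ^ 2 ≠ 0 := pow_ne_zero 2 hD
  apply mul_right_cancel₀ (pow_ne_zero 12 hD)
  calc G (g • z) * (denom g z ^ 2)⁻¹ * (E₄ z * E₆ z) * denom g z ^ 12
      = G (g • z) * (denom g z ^ 4 * E₄ z * (denom g z ^ 6 * E₆ z)) *
          ((denom g z ^ 2)⁻¹ * denom g z ^ 2) := by ring
    _ = u (g • z) * Δ z * denom g z ^ 12 := by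
        rw [inv_mul_cancel₀ hD2, mul_one, key]; ring

/-- **B2 (up)**: a cusp lift comes from a weight 2 cusp form. -/
theorem IsCuspLift.exists_cuspForm [Γ.FiniteIndex] {U : WH0 Γ} (hU : IsCuspLift U) :
    ∃ G : S2 Γ, ∀ z : ℍ, G z * (E₄ z * E₆ z) = U.1 z * Δ z := by
  obtain ⟨⟨V₁, hV₁⟩, ⟨V₂, hV₂⟩, Q, hQ, hroot, hdeg⟩ := hU
  -- divisibility in `Hol`
  set a : Hol := WH0.toHol Γ U * holDisc with ha
  have hV₁z : ∀ z : ℍ, U.1 z ^ 3 = jInv z * V₁.1 z := fun z =>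
    congrArg (fun h : WH0 Γ => h.1 z) hV₁
  have hV₂z : ∀ z : ℍ, U.1 z ^ 2 = (jInv z - 1728) * V₂.1 z := fun z => by
    have := congrArg (fun h : WH0 Γ => h.1 z) hV₂
    exact this
  have h1 : a ^ 3 = holE4 ^ 3 * (WH0.toHol Γ V₁ * holDisc ^ 2) := by
    apply Hol.ext
    intro z
    show (U.1 z * Δ z) ^ 3 = E₄ z ^ 3 * (V₁.1 z * Δ z ^ 2)
    rw [mul_pow, hV₁z z, ← jInv_mul_discriminant']
    ring
  have h2 : a ^ 2 = holE6 ^ 2 * (WH0.toHol Γ V₂ * holDisc) := by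
    apply Hol.ext
    intro z
    show (U.1 z * Δ z) ^ 2 = E₆ z ^ 2 * (V₂.1 z * Δ z)
    have hΔ := discriminant_ne_zero z
    rw [mul_pow, hV₂z z, jInv_sub_1728]
    field_simp
  obtain ⟨c, hc⟩ := exists_hol_mul_eq h1 h2
  have hcz : ∀ z : ℍ, (c : ℍ → ℂ) z * (E₄ z * E₆ z) = U.1 z * Δ z := fun z => by
    have := congrArg (fun h : Hol => (h : ℍ → ℂ) z) hc
    simp only [ha] at this
    show (c : ℍ → ℂ) z * (E₄ z * E₆ z) = U.1 z * Δ z
    have e : U.1 z * Δ z = E₄ z * E₆ z * (c : ℍ → ℂ) z := this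
    rw [e]; ring
  have hslash := slash_two_mul_eq hcz
  -- invariance
  have hinv : ∀ γ ∈ Γ, (c : ℍ → ℂ) ∣[(2 : ℤ)] γ = (c : ℍ → ℂ) := by
    intro γ hγ
    refine Conj.eq_of_mul_eq_mul ?_ c.2 mdiff_E₄_mul_E₆ E₄_mul_E₆_ne_zero ?_
    · exact c.2.slash 2 _
    · funext z
      show ((c : ℍ → ℂ) ∣[(2 : ℤ)] γ) z * (E₄ z * E₆ z) = (c : ℍ → ℂ) z * (E₄ z * E₆ z)
      rw [hslash γ z, hcz z, U.2.smul_eq γ hγ z]
  -- cusps
  have hzero : ∀ g : SL(2, ℤ), IsZeroAtImInfty ((c : ℍ → ℂ) ∣[(2 : ℤ)] g) := by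
    intro g
    have h3 := tendsto_translate_mul_discriminant hQ hroot hdeg g
    have h4 : Tendsto (fun z : ℍ => E₄ z * E₆ z) atImInfty (𝓝 (1 * 1)) :=
      tendsto_E₄_atImInfty.mul tendsto_E₆_atImInfty
    rw [one_mul] at h4
    have h5 : Tendsto (fun z : ℍ => U.1 (g • z) * Δ z / (E₄ z * E₆ z)) atImInfty (𝓝 (0 / 1)) :=
      h3.div h4 one_ne_zero
    rw [zero_div] at h5
    have hne : ∀ᶠ z in atImInfty, E₄ z * E₆ z ≠ 0 := h4.eventually_ne one_ne_zero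
    refine Tendsto.congr' ?_ h5
    filter_upwards [hne] with z hz
    rw [← hslash g z, mul_div_cancel_right₀ _ hz]
  refine ⟨{ toFun := (c : ℍ → ℂ)
            slash_action_eq' := fun A hA => by
              obtain ⟨γ, hγ, rfl⟩ := hA
              exact hinv γ hγ
            holo' := c.2
            zero_at_cusps' := fun {cu} hcu => by
              rw [Subgroup.IsArithmetic.isCusp_iff_isCusp_SL2Z] at hcu
              rw [OnePoint.isZeroAt_iff_forall_SL2Z hcu]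
              exact fun γ _ => hzero γ }, fun z => hcz z⟩

/-! ### Function-level modular forms on `Γ` and quotients by powers of `Δ` -/

/-- holomorphic, weight `k` invariant under `Γ`, bounded at all cusps -/
structure IsModFunOn (Γ : Subgroup SL(2, ℤ)) (k : ℤ) (F : ℍ → ℂ) : Prop where
  hol : MDiff F
  inv : ∀ γ ∈ Γ, F ∣[k] γ = F
  bdd : ∀ g : SL(2, ℤ), IsBoundedAtImInfty (F ∣[k] g)

theorem IsModFunOn.mul {k₁ k₂ : ℤ} {F G : ℍ → ℂ} (hF : IsModFunOn Γ k₁ F)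
    (hG : IsModFunOn Γ k₂ G) : IsModFunOn Γ (k₁ + k₂) (F * G) where
  hol := hF.hol.mul hG.hol
  inv := fun γ hγ => by rw [mul_slash_SL2, hF.inv γ hγ, hG.inv γ hγ]
  bdd := fun g => by
    rw [mul_slash_SL2]
    exact (hF.bdd g).mul (hG.bdd g)

theorem IsModFunOn.congr_weight {k₁ k₂ : ℤ} {F : ℍ → ℂ} (hF : IsModFunOn Γ k₁ F) (h : k₁ = k₂) :
    IsModFunOn Γ k₂ F := h ▸ hF

theorem isModFunOn_cuspForm [Γ.FiniteIndex] {k : ℤ}
    (f : CuspForm (Γ : Subgroup (GL (Fin 2) ℝ)) k) : IsModFunOn Γ k ⇑f where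
  hol := CuspFormClass.holo f
  inv := fun _ hγ => slash_mapGL_eq f hγ
  bdd := fun g => (CuspFormClass.zero_at_infty_slash f g).isBoundedAtImInfty

theorem slash_levelOne {k : ℤ} (F : ModularForm 𝒮ℒ k) (g : SL(2, ℤ)) : (⇑F) ∣[k] g = ⇑F :=
  F.slash_action_eq' _ ⟨g, rfl⟩

theorem isModFunOn_levelOne {k : ℤ} (F : ModularForm 𝒮ℒ k) : IsModFunOn Γ k ⇑F where
  hol := F.holo'
  inv := fun γ _ => slash_levelOne F γ
  bdd := fun g => by
    rw [slash_levelOne]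
    exact ModularFormClass.bdd_at_infty F

/-- `(F / Δ^d)(g z) Δ(z)^d = (F ∣[12 d] g)(z)` -/
theorem div_discriminant_pow_smul (F : ℍ → ℂ) (d : ℕ) (g : SL(2, ℤ)) (z : ℍ) :
    F (g • z) / Δ (g • z) ^ d * Δ z ^ d = (F ∣[(12 * (d : ℤ))] g) z := by
  have hD : denom g z ≠ 0 := denom_ne_zero _ _
  have hΔ : Δ z ^ d ≠ 0 := pow_ne_zero d (discriminant_ne_zero z)
  rw [SL_slash_apply, discriminant_smul, mul_pow, ← zpow_natCast (denom g z ^ (12 : ℤ)) d,
    ← zpow_mul, zpow_neg]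
  have hDz : denom g z ^ ((12 : ℤ) * (d : ℤ)) ≠ 0 := zpow_ne_zero _ hD
  field_simp

theorem IsModFunOn.isWH0_div {F : ℍ → ℂ} {d : ℕ} (hF : IsModFunOn Γ (12 * (d : ℤ)) F) :
    IsWH0 Γ (fun z => F z / Δ z ^ d) where
  mdiff := hF.hol.div (CuspForm.discriminant.holo'.pow d)
    (fun z => pow_ne_zero d (discriminant_ne_zero z))
  smul_eq := fun γ hγ z => by
    have h1 := div_discriminant_pow_smul F d γ z
    rw [hF.inv γ hγ] at h1
    have hΔ : Δ z ^ d ≠ 0 := pow_ne_zero d (discriminant_ne_zero z)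
    rw [eq_div_iff hΔ]
    exact h1
  exists_bdd := ⟨d, fun g => by
    have : (fun z : ℍ => F (g • z) / Δ (g • z) ^ d * Δ z ^ d) = F ∣[(12 * (d : ℤ))] g :=
      funext fun z => div_discriminant_pow_smul F d g z
    rw [this]
    exact hF.bdd g⟩

/-! ### Vieta at `i∞` -/

/-- if all `r x · δ → 0`, then (coefficient of `T^i` in `∏ (T - r x)`) `· δ^(n - i) → 0` for
`i < n`. -/
theorem tendsto_coeff_prod_mul_pow {ι α : Type*} [Fintype ι] {l : Filter α} (r : ι → α → ℂ)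
    (δ : α → ℂ) (hr : ∀ x, Tendsto (fun z => r x z * δ z) l (𝓝 0)) {i : ℕ}
    (hi : i < Fintype.card ι) :
    Tendsto (fun z => (∏ x : ι, (Polynomial.X - Polynomial.C (r x z))).coeff i *
      δ z ^ (Fintype.card ι - i)) l (𝓝 0) := by
  classical
  set n := Fintype.card ι with hn
  have h1 : ∀ z, (∏ x : ι, (Polynomial.X - Polynomial.C (r x z))).coeff i * δ z ^ (n - i) =
      ∑ t ∈ (Finset.univ : Finset ι).powersetCard (n - i), ∏ x ∈ t, (-(r x z * δ z)) := by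
    intro z
    have e : (∏ x : ι, (Polynomial.X - Polynomial.C (r x z))) =
        ∏ x ∈ (Finset.univ : Finset ι), (Polynomial.X + Polynomial.C (-(r x z))) := by
      refine Finset.prod_congr rfl fun x _ => ?_
      rw [Polynomial.C_neg, sub_eq_add_neg]
    rw [e, Finset.prod_X_add_C_coeff _ _ (by rw [Finset.card_univ]; exact hi.le),
      Finset.card_univ, Finset.sum_mul]
    refine Finset.sum_congr rfl fun t ht => ?_
    have hc : t.card = n - i := (Finset.mem_powersetCard.mp ht).2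
    rw [← hc, ← Finset.prod_const, ← Finset.prod_mul_distrib]
    refine Finset.prod_congr rfl fun x _ => ?_
    ring
  have h2 : Tendsto (fun z => ∑ t ∈ (Finset.univ : Finset ι).powersetCard (n - i),
      ∏ x ∈ t, (-(r x z * δ z))) l
      (𝓝 (∑ t ∈ (Finset.univ : Finset ι).powersetCard (n - i), ∏ x ∈ t, (-(0 : ℂ)))) := by
    refine tendsto_finsetSum _ fun t _ => ?_
    refine tendsto_finsetProd _ fun x _ => ?_
    exact (hr x).neg
  have h3 : (∑ t ∈ (Finset.univ : Finset ι).powersetCard (n - i), ∏ x ∈ t, (-(0 : ℂ))) = 0 := by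
    refine Finset.sum_eq_zero fun t ht => ?_
    have hc : t.card = n - i := (Finset.mem_powersetCard.mp ht).2
    rw [Finset.prod_const, hc, neg_zero, zero_pow (by omega)]
  rw [h3] at h2
  exact h2.congr fun z => (h1 z).symm

/-! ### B1 (down) -/

/-- the conjugates of `U` are translates -/
theorem exists_conjFun_eq (U : WH0 Γ) (x : SL(2, ℤ) ⧸ Γ) :
    ∃ g : SL(2, ℤ), ∀ z : ℍ, (WH0.conjFun U x).1 z = U.1 (g • z) := by
  induction x using QuotientGroup.induction_on with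
  | H g => exact ⟨g⁻¹, fun z => rfl⟩

/-- **B1 (down)**: `f E₄ E₆ / Δ` is a cusp lift. -/
theorem exists_isCuspLift [Γ.FiniteIndex] [Fintype (SL(2, ℤ) ⧸ Γ)] (f : S2 Γ) :
    ∃ U : WH0 Γ, (∀ z : ℍ, U.1 z * Δ z = f z * (E₄ z * E₆ z)) ∧ IsCuspLift U := by
  have hf : IsModFunOn Γ 2 ⇑f := isModFunOn_cuspForm f
  have h4 : IsModFunOn Γ 4 ⇑E₄ := isModFunOn_levelOne E₄
  have h6 : IsModFunOn Γ 6 ⇑E₆ := isModFunOn_levelOne E₆
  -- the three numerators
  have hF₁ : IsModFunOn Γ (12 * ((1 : ℕ) : ℤ)) (⇑f * (⇑E₄ * ⇑E₆)) :=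
    (hf.mul (h4.mul h6)).congr_weight (by norm_num)
  have hF₂ : IsModFunOn Γ (12 * ((2 : ℕ) : ℤ)) ((⇑f * ⇑f * ⇑f) * (⇑E₆ * ⇑E₆ * ⇑E₆)) :=
    (((hf.mul hf).mul hf).mul ((h6.mul h6).mul h6)).congr_weight (by norm_num)
  have hF₃ : IsModFunOn Γ (12 * ((1 : ℕ) : ℤ)) ((⇑f * ⇑f) * (⇑E₄ * ⇑E₄)) :=
    ((hf.mul hf).mul (h4.mul h4)).congr_weight (by norm_num)
  set U : WH0 Γ := ⟨_, hF₁.isWH0_div⟩ with hUdef
  set V₁ : WH0 Γ := ⟨_, hF₂.isWH0_div⟩ with hV₁def
  set V₂ : WH0 Γ := ⟨_, hF₃.isWH0_div⟩ with hV₂def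
  have hUz : ∀ z : ℍ, U.1 z = f z * (E₄ z * E₆ z) / Δ z ^ 1 := fun z => rfl
  have hV₁z : ∀ z : ℍ, V₁.1 z = (f z * f z * f z) * (E₆ z * E₆ z * E₆ z) / Δ z ^ 2 := fun z => rfl
  have hV₂z : ∀ z : ℍ, V₂.1 z = (f z * f z) * (E₄ z * E₄ z) / Δ z ^ 1 := fun z => rfl
  refine ⟨U, fun z => ?_, ⟨V₁, ?_⟩, ⟨V₂, ?_⟩, ?_⟩
  · have hΔ := discriminant_ne_zero z
    rw [hUz, pow_one, div_mul_cancel₀ _ hΔ]
  · apply Subtype.ext
    funext z
    show U.1 z ^ 3 = jInv z * V₁.1 z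
    have hΔ := discriminant_ne_zero z
    rw [hUz, hV₁z, jInv_def]
    field_simp
  · apply Subtype.ext
    funext z
    show U.1 z ^ 2 = (jInv z - 1728) * V₂.1 z
    have hΔ := discriminant_ne_zero z
    rw [hUz, hV₂z, jInv_sub_1728]
    field_simp
  · -- the conjugate polynomial
    obtain ⟨Q, hQ1, hQ2, hQ3⟩ := WH0.exists_monic_map_eq_conjPoly U
    refine ⟨Q, hQ1, ?_, ?_⟩
    · apply WH0.incl_injective Γ
      rw [map_zero, ← WH0.eval_incl_conjPoly U, ← hQ3, Polynomial.eval_map, Polynomial.aeval_def]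
      have h1 := Polynomial.hom_eval₂ Q (algebraMap ℂ[X] (WH0 Γ)) (WH0.incl Γ).toRingHom U
      have h2 : (WH0.incl Γ).toRingHom.comp (algebraMap ℂ[X] (WH0 Γ)) =
          algebraMap ℂ[X] (WH0 (⊥ : Subgroup SL(2, ℤ))) :=
        RingHom.ext (fun p => WH0.incl_algebraMap Γ p)
      rw [h2] at h1
      exact h1
    · intro i hi
      set n := Fintype.card (SL(2, ℤ) ⧸ Γ) with hn
      rw [hQ2] at hi ⊢
      have hgoal : (Q.coeff i).natDegree + 1 ≤ n - i := by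
        refine natDegree_lt_of_tendsto_jInv (Q.coeff i) (by omega) ?_
        -- the conjugates, pointwise
        choose g hg using exists_conjFun_eq U
        have hr : ∀ x : SL(2, ℤ) ⧸ Γ,
            Tendsto (fun z : ℍ => (WH0.conjFun U x).1 z * Δ z) atImInfty (𝓝 0) := by
          intro x
          have e : (fun z : ℍ => (WH0.conjFun U x).1 z * Δ z) =
              fun z : ℍ => (⇑f ∣[(2 : ℤ)] g x) z * (E₄ z * E₆ z) := by
            funext z
            rw [hg x z, hUz]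
            have h1 := div_discriminant_pow_smul (⇑f * (⇑E₄ * ⇑E₆)) 1 (g x) z
            have h2 : ((⇑f * (⇑E₄ * ⇑E₆)) ∣[(12 * ((1 : ℕ) : ℤ))] g x) =
                (⇑f ∣[(2 : ℤ)] g x) * (⇑E₄ * ⇑E₆) := by
              have e12 : (12 * ((1 : ℕ) : ℤ)) = 2 + (4 + 6) := by norm_num
              rw [e12, mul_slash_SL2, mul_slash_SL2, slash_levelOne, slash_levelOne]
            rw [h2, pow_one, pow_one] at h1
            rw [pow_one]
            exact h1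
          rw [e]
          have h0 : Tendsto (⇑f ∣[(2 : ℤ)] g x) atImInfty (𝓝 0) :=
            CuspFormClass.zero_at_infty_slash f (g x)
          have h1 : Tendsto (fun z : ℍ => E₄ z * E₆ z) atImInfty (𝓝 (1 * 1)) :=
            tendsto_E₄_atImInfty.mul tendsto_E₆_atImInfty
          have h2 := h0.mul h1
          rw [zero_mul] at h2
          exact h2
        have hV := tendsto_coeff_prod_mul_pow
          (fun (x : SL(2, ℤ) ⧸ Γ) (z : ℍ) => (WH0.conjFun U x).1 z) (fun z : ℍ => Δ z) hr hi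
        refine hV.congr fun z => ?_
        congr 1
        -- identify the coefficient
        have e1 : (Q.coeff i).eval (jInv z) = ((WH0.conjPoly U).coeff i).1 z := by
          rw [← hQ3, Polynomial.coeff_map, WH0.algebraMap_poly_apply]
        rw [e1, ← wh0Eval_apply z ((WH0.conjPoly U).coeff i), ← Polynomial.coeff_map,
          WH0.conjPoly, Polynomial.map_prod]
        congr 1
        refine Finset.prod_congr rfl fun x _ => ?_
        rw [Polynomial.map_sub, Polynomial.map_X, Polynomial.map_C, wh0Eval_apply]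
      omega

/-! ### Stability under semilinear ring homomorphisms fixing `j` -/

theorem map_algebraMap_poly {Γ' : Subgroup SL(2, ℤ)} (φ : WH0 Γ →+* WH0 Γ') (τ : ℂ →+* ℂ)
    (hj : φ (WH0.j Γ) = WH0.j Γ')
    (hc : ∀ c : ℂ, φ (algebraMap ℂ (WH0 Γ) c) = algebraMap ℂ (WH0 Γ') (τ c)) (p : ℂ[X]) :
    φ (algebraMap ℂ[X] (WH0 Γ) p) = algebraMap ℂ[X] (WH0 Γ') (p.map τ) := by
  rw [WH0.algebraMap_poly, WH0.algebraMap_poly, Polynomial.aeval_def, Polynomial.hom_eval₂,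
    Polynomial.aeval_def, Polynomial.eval₂_map, hj]
  congr 1
  exact RingHom.ext hc

/-- **`IsCuspLift` is stable under `τ`-semilinear ring homomorphisms fixing `j`.** -/
theorem IsCuspLift.map {Γ' : Subgroup SL(2, ℤ)} (φ : WH0 Γ →+* WH0 Γ') (τ : ℂ →+* ℂ)
    (hj : φ (WH0.j Γ) = WH0.j Γ')
    (hc : ∀ c : ℂ, φ (algebraMap ℂ (WH0 Γ) c) = algebraMap ℂ (WH0 Γ') (τ c))
    {U : WH0 Γ} (hU : IsCuspLift U) : IsCuspLift (φ U) := by
  obtain ⟨⟨V₁, hV₁⟩, ⟨V₂, hV₂⟩, Q, hQ, hroot, hdeg⟩ := hU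
  refine ⟨⟨φ V₁, ?_⟩, ⟨φ V₂, ?_⟩, Q.map (Polynomial.mapRingHom τ), hQ.map _, ?_, ?_⟩
  · rw [← map_pow, hV₁, map_mul, hj]
  · rw [← map_pow, hV₂, map_mul, map_sub, hj, map_ofNat]
  · rw [Polynomial.aeval_def, Polynomial.eval₂_map]
    have h1 : (algebraMap ℂ[X] (WH0 Γ')).comp (Polynomial.mapRingHom τ) =
        φ.comp (algebraMap ℂ[X] (WH0 Γ)) := by
      refine RingHom.ext fun p => ?_
      rw [RingHom.comp_apply, RingHom.comp_apply, map_algebraMap_poly φ τ hj hc]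
      rfl
    rw [h1, ← Polynomial.hom_eval₂, ← Polynomial.aeval_def, hroot, map_zero]
  · intro i hi
    rw [hQ.natDegree_map] at hi ⊢
    have h1 := hdeg i hi
    have h2 : ((Q.map (Polynomial.mapRingHom τ)).coeff i).natDegree ≤ (Q.coeff i).natDegree := by
      rw [Polynomial.coeff_map]
      exact Polynomial.natDegree_map_le
    omega

end Fermat.Agent.S48lib.X1.Forms
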