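/-
S48lib / X1 / Forms / CuspUp (helper1).
`UpStmt M` (helper7's `Forms/CuspData`) from `IsCuspLift.exists_cuspForm` (`Forms/CuspLift`) at
`Γ = ±Γ₁(M)`, transported to `Γ₁(M)` by `toPm`.
-/
import Mathlib
import Fermat.Agent.S48lib.X1.Forms.CuspLift
import Fermat.Agent.S48lib.X1.Forms.CuspData
import Fermat.Agent.S48lib.X1.Forms.Pm

set_option autoImplicit false

noncomputable section

namespace Fermat.Agent.S48lib.X1.Forms

open Polynomial CongruenceSubgroup UpperHalfPlane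
open Fermat.Agent.ProgramR Fermat.Agent.S48lib.X1.Wp
open scoped MatrixGroups

theorem CuspData.isCuspLift {M : ℕ} {U : WH0 (pmGamma1 M)} (h : CuspData M U) : IsCuspLift U := by
  obtain ⟨⟨V₁, h1⟩, ⟨V₂, h2⟩, Q, hQ1, hQ2, hQ3⟩ := h
  refine ⟨⟨V₁, h1⟩, ⟨V₂, ?_⟩, Q, hQ1, hQ2, fun i hi => ?_⟩
  · rw [h2, map_ofNat]
  · have := hQ3 i hi
    omega

/-- **(B2, up)** -/
theorem upStmt (M : ℕ) [NeZero M] : UpStmt M := by
  intro U hU
  obtain ⟨G, hG⟩ := hU.isCuspLift.exists_cuspForm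
  exact ⟨(toPm M).symm G, fun τ => hG τ⟩

end Fermat.Agent.S48lib.X1.Forms
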