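/-
S48lib / X1 / Forms / CuspDown (helper7).
**(B1, down)**: for a weight 2 cusp form `f` on `Γ` (finite index in `SL(2,ℤ)`), the function
`U = f · E₄E₆/Δ` lies in `WH0 Γ`, satisfies `U³ = j · V₁`, `U² = (j - 1728) · V₂` in `WH0 Γ`, and is
a root of a monic `Q ∈ ℂ[j][Y]` whose coefficient of `Y^i` has degree `< deg Q - i` in `j`.
-/
import Mathlib
import Fermat.Agent.S48lib.X1.Forms.Period
import Fermat.Agent.ProgramR.Analytic.WH0Ring

set_option autoImplicit false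
set_option linter.unusedSectionVars false

noncomputable section

namespace Fermat.Agent.S48lib.X1.Forms

open Complex Filter Function Polynomial
open UpperHalfPlane hiding I
open ModularForm EisensteinSeries MatrixGroups CongruenceSubgroup
open Fermat.Agent.ProgramR Fermat.Agent.ProgramR.LevelOne
open scoped Real Topology Manifold ModularForm

local notation "Δ" => ModularForm.discriminant

/-! ### Function-level modular forms -/

/-- holomorphic, weight `k` invariant under `Γ`, bounded at `i∞` after every `SL(2,ℤ)`-slash -/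
structure IsMF (Γ : Subgroup SL(2, ℤ)) (k : ℤ) (F : ℍ → ℂ) : Prop where
  mdiff : MDiff F
  slash_eq : ∀ γ ∈ Γ, F ∣[k] γ = F
  bdd : ∀ g : SL(2, ℤ), IsBoundedAtImInfty (F ∣[k] g)

namespace IsMF

variable {Γ : Subgroup SL(2, ℤ)} {k l : ℤ} {F G : ℍ → ℂ}

theorem mul (hF : IsMF Γ k F) (hG : IsMF Γ l G) : IsMF Γ (k + l) (F * G) where
  mdiff := hF.mdiff.mul hG.mdiff
  slash_eq := fun γ hγ => by
    rw [ModularForm.mul_slash_SL2, hF.slash_eq γ hγ, hG.slash_eq γ hγ]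
  bdd := fun g => by
    rw [ModularForm.mul_slash_SL2]
    exact (hF.bdd g).mul (hG.bdd g)

theorem pow (hF : IsMF Γ k F) (n : ℕ) : IsMF Γ (n * k) (F ^ n) := by
  induction n with
  | zero =>
    refine ⟨?_, fun γ _ => ?_, fun g => ?_⟩
    · rw [pow_zero]
      exact (mdifferentiable_const : MDiff (fun _ : ℍ => (1 : ℂ)))
    · simp only [Nat.cast_zero, zero_mul, pow_zero]
      exact ModularForm.is_invariant_one γ
    · simp only [Nat.cast_zero, zero_mul, pow_zero]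
      rw [ModularForm.is_invariant_one]
      exact Filter.const_boundedAtFilter atImInfty (1 : ℂ)
  | succ n ih =>
    have := ih.mul hF
    have e : ((n : ℤ) * k + k) = ((n + 1 : ℕ) : ℤ) * k := by push_cast; ring
    rw [e, ← pow_succ] at this
    exact this

theorem apply_smul (hF : IsMF Γ k F) {γ : SL(2, ℤ)} (hγ : γ ∈ Γ) (z : ℍ) :
    F (γ • z) = denom γ z ^ k * F z := by
  have h := congrFun (hF.slash_eq γ hγ) z
  rw [ModularForm.SL_slash_apply] at h
  have hd : denom γ z ≠ 0 := denom_ne_zero _ _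
  rw [← h, mul_comm, mul_assoc, ← zpow_add₀ hd]
  simp

/-- `F / Δ^m` is a weakly holomorphic function when `F` has weight `12 m` -/
theorem isWH0_div (m : ℕ) (hF : IsMF Γ (12 * m) F) : IsWH0 Γ (fun z => F z / Δ z ^ m) where
  mdiff := by
    have h1 : MDiff (fun z : ℍ => CuspForm.discriminant z ^ m) :=
      CuspForm.discriminant.holo'.pow m
    exact hF.mdiff.div h1 fun z => pow_ne_zero m (discriminant_ne_zero z)
  smul_eq := fun γ hγ z => by
    have hd : denom γ z ≠ 0 := denom_ne_zero _ _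
    have hΔ : Δ z ≠ 0 := discriminant_ne_zero z
    rw [hF.apply_smul hγ, discriminant_smul, mul_pow, ← zpow_natCast (denom γ z ^ (12 : ℤ)) m,
      ← zpow_mul, mul_div_mul_left _ _ (zpow_ne_zero _ hd)]
  exists_bdd := ⟨m, fun g => by
    refine Asymptotics.IsBigO.congr_left (hF.bdd g) fun z => ?_
    have hd : denom g z ≠ 0 := denom_ne_zero _ _
    have hΔ : Δ z ≠ 0 := discriminant_ne_zero z
    rw [ModularForm.SL_slash_apply, discriminant_smul, mul_pow,
      ← zpow_natCast (denom g z ^ (12 : ℤ)) m, ← zpow_mul, zpow_neg]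
    field_simp⟩

end IsMF

variable {Γ : Subgroup SL(2, ℤ)}

theorem isMF_cuspForm [Γ.FiniteIndex] (f : S2 Γ) : IsMF Γ 2 (⇑f) where
  mdiff := CuspFormClass.holo f
  slash_eq := fun γ hγ => slash_mapGL_eq f hγ
  bdd := fun g => (CuspFormClass.zero_at_infty_slash f g).isBoundedAtImInfty

theorem isMF_E₄ : IsMF Γ 4 (E₄ : ℍ → ℂ) where
  mdiff := E₄.holo'
  slash_eq := fun γ _ => SlashInvariantForm.slash_action_eqn E₄ _ ⟨γ, rfl⟩
  bdd := fun g => by
    have h : (E₄ : ℍ → ℂ) ∣[(4 : ℤ)] g = E₄ := SlashInvariantForm.slash_action_eqn E₄ _ ⟨g, rfl⟩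
    rw [h]
    exact ModularFormClass.bdd_at_infty E₄

theorem isMF_E₆ : IsMF Γ 6 (E₆ : ℍ → ℂ) where
  mdiff := E₆.holo'
  slash_eq := fun γ _ => SlashInvariantForm.slash_action_eqn E₆ _ ⟨γ, rfl⟩
  bdd := fun g => by
    have h : (E₆ : ℍ → ℂ) ∣[(6 : ℤ)] g = E₆ := SlashInvariantForm.slash_action_eqn E₆ _ ⟨g, rfl⟩
    rw [h]
    exact ModularFormClass.bdd_at_infty E₆

/-! ### The three functions -/

section Down

variable [Γ.FiniteIndex] (f : S2 Γ)

/-- `U = f E₄ E₆ / Δ` -/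
def downU : WH0 Γ :=
  ⟨fun z => ((⇑f : ℍ → ℂ) * ((E₄ : ℍ → ℂ) * (E₆ : ℍ → ℂ))) z / Δ z ^ 1,
    IsMF.isWH0_div 1 (by
      have := (isMF_cuspForm f).mul ((isMF_E₄ (Γ := Γ)).mul isMF_E₆)
      norm_num at this ⊢
      exact this)⟩

/-- `V₁ = f³ E₆³ / Δ²` -/
def downV₁ : WH0 Γ :=
  ⟨fun z => ((⇑f : ℍ → ℂ) ^ 3 * (E₆ : ℍ → ℂ) ^ 3) z / Δ z ^ 2,
    IsMF.isWH0_div 2 (by
      have := ((isMF_cuspForm f).pow 3).mul ((isMF_E₆ (Γ := Γ)).pow 3)
      norm_num at this ⊢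
      exact this)⟩

/-- `V₂ = f² E₄² / Δ` -/
def downV₂ : WH0 Γ :=
  ⟨fun z => ((⇑f : ℍ → ℂ) ^ 2 * (E₄ : ℍ → ℂ) ^ 2) z / Δ z ^ 1,
    IsMF.isWH0_div 1 (by
      have := ((isMF_cuspForm f).pow 2).mul ((isMF_E₄ (Γ := Γ)).pow 2)
      norm_num at this ⊢
      exact this)⟩

theorem downU_apply (z : ℍ) : (downU f).1 z = f z * (E₄ z * E₆ z) / Δ z := by
  show ((⇑f : ℍ → ℂ) * ((E₄ : ℍ → ℂ) * (E₆ : ℍ → ℂ))) z / Δ z ^ 1 = _
  simp

theorem downU_mul_discriminant (z : ℍ) : (downU f).1 z * Δ z = f z * (E₄ z * E₆ z) := by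
  rw [downU_apply, div_mul_cancel₀ _ (discriminant_ne_zero z)]

theorem downU_pow_three : downU f ^ 3 = WH0.j Γ * downV₁ f := by
  apply Subtype.ext
  funext z
  have hΔ : Δ z ≠ 0 := discriminant_ne_zero z
  show (downU f).1 z ^ 3 = jInv z * (((⇑f : ℍ → ℂ) ^ 3 * (E₆ : ℍ → ℂ) ^ 3) z / Δ z ^ 2)
  rw [downU_apply, jInv]
  simp only [Pi.mul_apply, Pi.pow_apply]
  field_simp

theorem downU_pow_two : downU f ^ 2 = (WH0.j Γ - 1728) * downV₂ f := by
  apply Subtype.ext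
  funext z
  have hΔ : Δ z ≠ 0 := discriminant_ne_zero z
  show (downU f).1 z ^ 2 =
    (jInv z - 1728) * (((⇑f : ℍ → ℂ) ^ 2 * (E₄ : ℍ → ℂ) ^ 2) z / Δ z ^ 1)
  rw [downU_apply, jInv_sub_1728]
  simp only [Pi.mul_apply, Pi.pow_apply]
  field_simp

/-- the translates of `U` times `Δ` tend to `0` at `i∞` -/
theorem tendsto_downU_smul_mul (g : SL(2, ℤ)) :
    Tendsto (fun z : ℍ => (downU f).1 (g • z) * Δ z) atImInfty (𝓝 0) := by
  have h1 : Tendsto ((⇑f : ℍ → ℂ) ∣[(2 : ℤ)] g) atImInfty (𝓝 0) :=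
    CuspFormClass.zero_at_infty_slash f g
  have h2 := (h1.mul (tendsto_E₄_atImInfty.mul tendsto_E₆_atImInfty))
  rw [zero_mul] at h2
  refine h2.congr fun z => ?_
  have hd : denom g z ≠ 0 := denom_ne_zero _ _
  have hΔ : Δ z ≠ 0 := discriminant_ne_zero z
  rw [downU_apply, ModularForm.SL_slash_apply, discriminant_smul, E₄_smul, E₆_smul, zpow_neg]
  have e4 : denom g z ^ (4 : ℤ) = denom g z ^ 4 := by norm_cast
  have e6 : denom g z ^ (6 : ℤ) = denom g z ^ 6 := by norm_cast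
  have e12 : denom g z ^ (12 : ℤ) = denom g z ^ 12 := by norm_cast
  have e2 : denom g z ^ (2 : ℤ) = denom g z ^ 2 := by norm_cast
  rw [e4, e6, e12, e2]
  field_simp

end Down

/-! ### A polynomial in `j` killed by a power of `Δ` at `i∞` has small degree -/

theorem tendsto_discriminant_pow {n : ℕ} (hn : n ≠ 0) :
    Tendsto (fun z : ℍ => Δ z ^ n) atImInfty (𝓝 0) := by
  have h : Tendsto (fun z : ℍ => Δ z) atImInfty (𝓝 0) := ModularForm.discriminant_isZeroAtImInfty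
  have := h.pow n
  rwa [zero_pow hn] at this

theorem tendsto_eval_jInv_mul (P : ℂ[X]) :
    Tendsto (fun z : ℍ => P.eval (jInv z) * Δ z ^ P.natDegree) atImInfty (𝓝 P.leadingCoeff) := by
  set d := P.natDegree with hd
  have hfun : (fun z : ℍ => P.eval (jInv z) * Δ z ^ d) =
      fun z : ℍ => ∑ m ∈ Finset.range (d + 1), P.coeff m * (E₄ z ^ 3) ^ m * Δ z ^ (d - m) := by
    funext z
    rw [Polynomial.eval_eq_sum_range, Finset.sum_mul]
    refine Finset.sum_congr rfl fun m hm => ?_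
    have hm' : m ≤ d := Nat.lt_succ_iff.1 (Finset.mem_range.1 hm)
    have e : Δ z ^ d = Δ z ^ m * Δ z ^ (d - m) := by
      rw [← pow_add, Nat.add_sub_cancel' hm']
    rw [e, ← jInv_mul_discriminant', mul_pow]
    ring
  rw [hfun]
  have hlim : ∀ m ∈ Finset.range (d + 1), Tendsto
      (fun z : ℍ => P.coeff m * (E₄ z ^ 3) ^ m * Δ z ^ (d - m)) atImInfty
      (𝓝 (if m = d then P.coeff d else 0)) := by
    intro m hm
    have hm' : m ≤ d := Nat.lt_succ_iff.1 (Finset.mem_range.1 hm)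
    have h1 : Tendsto (fun z : ℍ => P.coeff m * (E₄ z ^ 3) ^ m) atImInfty (𝓝 (P.coeff m)) := by
      have := ((tendsto_E₄_atImInfty.pow 3).pow m).const_mul (P.coeff m)
      simpa using this
    split_ifs with h
    · subst h
      simpa using h1
    · have h2 := tendsto_discriminant_pow (n := d - m) (by omega)
      have := h1.mul h2
      rwa [mul_zero] at this
  have := tendsto_finsetSum (Finset.range (d + 1)) hlim
  rw [Finset.sum_ite_eq' (Finset.range (d + 1)) d, if_pos (Finset.self_mem_range_succ d)] at this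
  exact this

theorem natDegree_lt_of_tendsto (P : ℂ[X]) {k : ℕ} (hk : 0 < k)
    (h : Tendsto (fun z : ℍ => P.eval (jInv z) * Δ z ^ k) atImInfty (𝓝 0)) : P.natDegree < k := by
  by_contra hcon
  rw [not_lt] at hcon
  have hP : P ≠ 0 := by
    rintro rfl
    rw [Polynomial.natDegree_zero] at hcon
    omega
  have h1 := tendsto_eval_jInv_mul P
  have h2 : Tendsto (fun z : ℍ => P.eval (jInv z) * Δ z ^ P.natDegree) atImInfty (𝓝 0) := by
    have h3 : Tendsto (fun z : ℍ => Δ z ^ (P.natDegree - k)) atImInfty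
        (𝓝 ((0 : ℂ) ^ (P.natDegree - k))) := by
      have h : Tendsto (fun z : ℍ => Δ z) atImInfty (𝓝 0) :=
        ModularForm.discriminant_isZeroAtImInfty
      exact h.pow _
    have h4 := h.mul h3
    rw [zero_mul] at h4
    refine h4.congr fun z => ?_
    rw [mul_assoc, ← pow_add, Nat.add_sub_cancel' hcon]
  exact Polynomial.leadingCoeff_ne_zero.2 hP (tendsto_nhds_unique h1 h2)

/-! ### The conjugate polynomial of `U` -/

section Poly

variable [Γ.FiniteIndex] [Fintype (SL(2, ℤ) ⧸ Γ)] (f : S2 Γ)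

/-- evaluation at a point of `ℍ` -/
def evalAt (z : ℍ) : WH0 (⊥ : Subgroup SL(2, ℤ)) →+* ℂ :=
  (Pi.evalRingHom (fun _ : ℍ => ℂ) z).comp (WH0 (⊥ : Subgroup SL(2, ℤ))).val.toRingHom

@[simp] theorem evalAt_apply (z : ℍ) (h : WH0 (⊥ : Subgroup SL(2, ℤ))) : evalAt z h = h.1 z := rfl

theorem coeff_conjPoly (h : WH0 Γ) {i : ℕ} (hi : i ≤ Fintype.card (SL(2, ℤ) ⧸ Γ)) :
    (WH0.conjPoly h).coeff i = (-1) ^ (Fintype.card (SL(2, ℤ) ⧸ Γ) - i) *
      ∑ t ∈ (Finset.univ : Finset (SL(2, ℤ) ⧸ Γ)).powersetCard (Fintype.card (SL(2, ℤ) ⧸ Γ) - i),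
        ∏ x ∈ t, WH0.conjFun h x := by
  have e : WH0.conjPoly h =
      (((Finset.univ : Finset (SL(2, ℤ) ⧸ Γ)).val.map (WH0.conjFun h)).map
        fun t => X - C t).prod := by
    rw [WH0.conjPoly, Multiset.map_map]
    rfl
  have hc : Multiset.card ((Finset.univ : Finset (SL(2, ℤ) ⧸ Γ)).val.map (WH0.conjFun h)) =
      Fintype.card (SL(2, ℤ) ⧸ Γ) := by
    rw [Multiset.card_map]
    rfl
  rw [e, Multiset.prod_X_sub_C_coeff _ (by rw [hc]; exact hi), hc, Finset.esymm_map_val]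

theorem conjFun_downU_mul (x : SL(2, ℤ) ⧸ Γ) :
    Tendsto (fun z : ℍ => (WH0.conjFun (downU f) x).1 z * Δ z) atImInfty (𝓝 0) := by
  obtain ⟨g, rfl⟩ := QuotientGroup.mk_surjective x
  have := tendsto_downU_smul_mul f g⁻¹
  refine this.congr fun z => ?_
  rw [WH0.conjFun_mk, WH0.translate_apply, WH0.incl_apply]

theorem tendsto_coeff_conjPoly_mul {i : ℕ} (hi : i < Fintype.card (SL(2, ℤ) ⧸ Γ)) :
    Tendsto (fun z : ℍ => ((WH0.conjPoly (downU f)).coeff i).1 z *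
      Δ z ^ (Fintype.card (SL(2, ℤ) ⧸ Γ) - i)) atImInfty (𝓝 0) := by
  set k := Fintype.card (SL(2, ℤ) ⧸ Γ) - i with hk
  have hk0 : k ≠ 0 := by omega
  have hfun : (fun z : ℍ => ((WH0.conjPoly (downU f)).coeff i).1 z * Δ z ^ k) =
      fun z : ℍ => (-1) ^ k * ∑ t ∈ (Finset.univ : Finset (SL(2, ℤ) ⧸ Γ)).powersetCard k,
        ∏ x ∈ t, ((WH0.conjFun (downU f) x).1 z * Δ z) := by
    funext z
    rw [coeff_conjPoly (downU f) hi.le, ← evalAt_apply z, map_mul, map_pow, map_neg, map_one,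
      map_sum, mul_assoc, Finset.sum_mul]
    congr 1
    refine Finset.sum_congr rfl fun t ht => ?_
    rw [map_prod, Finset.prod_mul_distrib, Finset.prod_const, (Finset.mem_powersetCard.1 ht).2]
    rfl
  rw [hfun]
  have hlim : ∀ t ∈ (Finset.univ : Finset (SL(2, ℤ) ⧸ Γ)).powersetCard k, Tendsto
      (fun z : ℍ => ∏ x ∈ t, ((WH0.conjFun (downU f) x).1 z * Δ z)) atImInfty (𝓝 0) := by
    intro t ht
    have h1 := tendsto_finsetProd t (fun x _ => conjFun_downU_mul f x)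
    rw [Finset.prod_const, (Finset.mem_powersetCard.1 ht).2, zero_pow hk0] at h1
    exact h1
  have h2 := (tendsto_finsetSum _ hlim).const_mul ((-1 : ℂ) ^ k)
  rw [Finset.sum_const_zero, mul_zero] at h2
  exact h2

/-- **(B1, down)** -/
theorem exists_cuspLift_data :
    ∃ U : WH0 Γ, (∀ z : ℍ, U.1 z * Δ z = f z * (E₄ z * E₆ z)) ∧
      (∃ V₁ : WH0 Γ, U ^ 3 = WH0.j Γ * V₁) ∧
      (∃ V₂ : WH0 Γ, U ^ 2 = (WH0.j Γ - 1728) * V₂) ∧
      ∃ Q : ℂ[X][X], Q.Monic ∧ Polynomial.aeval U Q = 0 ∧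
        ∀ i, i < Q.natDegree → (Q.coeff i).natDegree + i + 1 ≤ Q.natDegree := by
  refine ⟨downU f, downU_mul_discriminant f, ⟨downV₁ f, downU_pow_three f⟩,
    ⟨downV₂ f, downU_pow_two f⟩, ?_⟩
  obtain ⟨Q, hQ1, hQ2, hQ3⟩ := WH0.exists_monic_map_eq_conjPoly (downU f)
  refine ⟨Q, hQ1, ?_, ?_⟩
  · apply WH0.incl_injective Γ
    rw [map_zero, ← WH0.eval_incl_conjPoly (downU f), ← hQ3, Polynomial.eval_map,
      Polynomial.aeval_def]
    have h1 := Polynomial.hom_eval₂ Q (algebraMap ℂ[X] (WH0 Γ)) (WH0.incl Γ).toRingHom (downU f)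
    have h2 : (WH0.incl Γ).toRingHom.comp (algebraMap ℂ[X] (WH0 Γ)) =
        algebraMap ℂ[X] (WH0 (⊥ : Subgroup SL(2, ℤ))) :=
      RingHom.ext (fun p => WH0.incl_algebraMap Γ p)
    rw [h2] at h1
    exact h1
  · intro i hi
    rw [hQ2] at hi ⊢
    have hc : algebraMap ℂ[X] (WH0 (⊥ : Subgroup SL(2, ℤ))) (Q.coeff i) =
        (WH0.conjPoly (downU f)).coeff i := by
      rw [← hQ3, Polynomial.coeff_map]
    have ht := tendsto_coeff_conjPoly_mul f hi
    rw [← hc] at ht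
    simp only [WH0.algebraMap_poly_apply] at ht
    have := natDegree_lt_of_tendsto (Q.coeff i) (by omega) ht
    omega

end Poly

end Fermat.Agent.S48lib.X1.Forms
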