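/-
S48lib / X1 / Forms / Gamma1 (helper1).
The diamond operators, `T_p` (`p ∤ M`) and `U_p` (`p ∣ M`) on `S₂(Γ₁(M))` preserve the period
lattice; hence the `ℤ`-algebra they generate is a finitely generated `ℤ`-module, and the
`ℤ`-span of the coefficient functionals `a_n : S₂(Γ₁(M)) → ℂ` is finitely generated
(`span_coeffFun_fg`).  Consequence (`span_intLattice_eq_top_of_stable`): if the `q`-expansions of
`S₂(Γ₁(M))` are stable under the field automorphisms of `ℂ`, then `S₂(Γ₁(M))` is spanned by the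
forms with integral `q`-expansion.
-/
import Mathlib
import Fermat.Agent.S48lib.X1.Forms.Lattice
import Fermat.Agent.S48lib.W1.HeckeU
import Fermat.Agent.S48lib.Iface.W2
import Fermat.Agent.ProgramR.Descent.Echelon

set_option autoImplicit false
set_option linter.unusedSectionVars false

noncomputable section

namespace Fermat.Agent.S48lib.X1.Forms

open UpperHalfPlane CongruenceSubgroup Matrix.SpecialLinearGroup ModularForm ModularFormClass
open P2MW.S_ModularForm_heckeT_slash_eq_self_of_mem_Gamma0.ModularForm.HeckeSlashInvariance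
open Fermat.Agent.S16lib.LH Fermat.Agent.S48lib.W1
open scoped MatrixGroups ModularForm Manifold

variable {M : ℕ} [NeZero M]

theorem det_mapGL_pos (γ : SL(2, ℤ)) : 0 < ((mapGL ℝ γ : GL (Fin 2) ℝ).det).val := by
  simp

/-- an element of `Γ₀(M)` with trivial diamond class, as an element of `Γ₁(M)` -/
def toG1 (γ : Gamma0 M) (h : gamma0Unit γ = 1) : Gamma1 M :=
  ⟨(γ : SL(2, ℤ)), mem_Gamma1_of_gamma0Unit_eq_one h⟩

@[simp] theorem coe_toG1 (γ : Gamma0 M) (h : gamma0Unit γ = 1) :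
    ((toG1 γ h : Gamma1 M) : SL(2, ℤ)) = (γ : SL(2, ℤ)) := rfl

/-- an element of `Γ₁(M)` as an element of `Γ₀(M)` -/
def ofG1 (γ : Gamma1 M) : Gamma0 M := ⟨(γ : SL(2, ℤ)), Gamma1_in_Gamma0 M γ.2⟩

@[simp] theorem coe_ofG1 (γ : Gamma1 M) : ((ofG1 γ : Gamma0 M) : SL(2, ℤ)) = (γ : SL(2, ℤ)) := rfl

theorem gamma0Unit_ofG1 (γ : Gamma1 M) : gamma0Unit (ofG1 γ) = 1 :=
  gamma0Unit_eq_one_of_mem_Gamma1 γ.2

/-! ### the three families of operators preserve the period lattice -/

theorem diamond_comp_mem (u : (ZMod M)ˣ) :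
    ∀ l ∈ periodLattice (Gamma1 M), l ∘ₗ (diamond 2 u) ∈ periodLattice (Gamma1 M) := by
  refine comp_mem_periodLattice (ι := Unit)
    (fun _ => (mapGL ℝ ((unitRep u : Gamma0 M) : SL(2, ℤ)) : GL (Fin 2) ℝ))
    (fun _ => det_mapGL_pos _) (fun f => ?_) (fun γ => ?_)
  · rw [Fintype.sum_unique]
    rfl
  · refine ⟨1, fun _ => toG1 (unitRep u * ofG1 γ * (unitRep u)⁻¹) ?_, fun _ => ?_⟩
    · rw [gamma0Unit_mul, gamma0Unit_mul, gamma0Unit_inv, gamma0Unit_ofG1, mul_one,
        mul_inv_cancel]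
    · rw [coe_toG1, ← map_mul, ← map_mul]
      congr 1
      simp

theorem det_heckeRep_pos (p : ℕ) (x : OnePoint (ZMod p)) : 0 < ((heckeRep p x).det).val := by
  induction x using OnePoint.rec with
  | infty => exact det_heckeDiagMatrix_pos p
  | coe j => exact det_heckeMatrix_pos p j.val

theorem heckeT1_comp_mem {p : ℕ} (hp : p.Prime) (hpM : ¬ p ∣ M) :
    ∀ l ∈ periodLattice (Gamma1 M), l ∘ₗ (heckeT1 2 hp hpM) ∈ periodLattice (Gamma1 M) := by
  have : Fact p.Prime := ⟨hp⟩
  have h : Nat.Coprime p M := coprime_of_not_dvd hpM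
  refine comp_mem_periodLattice (ι := OnePoint (ZMod p))
    (fun x => (mapGL ℝ ((unitRep (tw h x) : Gamma0 M) : SL(2, ℤ)) : GL (Fin 2) ℝ) * heckeRep p x)
    (fun x => ?_) (fun f => ?_) (fun γ => ?_)
  · rw [map_mul, Units.val_mul]
    exact mul_pos (det_mapGL_pos _) (det_heckeRep_pos p x)
  · rw [coe_heckeT1 hp hpM, (isG1Inv_of_slashInvariantFormClass f).heckeT1Fun_eq_sum h]
    refine Finset.sum_congr rfl fun x _ => ?_
    rw [SlashAction.slash_mul]
    rfl
  · refine ⟨tPerm p (ofG1 γ), fun x => toG1 (unitRep (tw h x) * tCoc hpM (ofG1 γ) x *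
      (unitRep (tw h (tPerm p (ofG1 γ) x)))⁻¹) ?_, fun x => ?_⟩
    · rw [gamma0Unit_mul, gamma0Unit_mul, gamma0Unit_inv, gamma0Unit_unitRep, gamma0Unit_unitRep,
        tw_mul_gamma0Unit_tCoc h hpM, gamma0Unit_ofG1, one_mul, mul_inv_cancel]
    · have hrel := tCoc_rel hpM (ofG1 γ) x
      rw [coe_ofG1] at hrel
      rw [coe_toG1, mul_assoc, hrel]
      simp only [Subgroup.coe_mul, Subgroup.coe_inv, map_mul, map_inv, mul_assoc,
        inv_mul_cancel_left]

theorem heckeUd_comp_mem {d : ℕ} (hdM : d ∣ M) :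
    ∀ l ∈ periodLattice (Gamma1 M), l ∘ₗ (heckeUd 2 hdM) ∈ periodLattice (Gamma1 M) := by
  have : NeZero d := ⟨ne_zero_of_dvd_level hdM⟩
  refine comp_mem_periodLattice (ι := ZMod d) (fun x => heckeMatrix d x.val)
    (fun x => det_heckeMatrix_pos d x.val) (fun f => ?_) (fun γ => ?_)
  · rw [coe_heckeUd, heckeU_eq_sum_zmod]
  · refine ⟨uPerm hdM (ofG1 γ), fun x => toG1 (uCoc hdM (ofG1 γ) x) ?_, fun x => ?_⟩
    · rw [gamma0Unit_uCoc, gamma0Unit_ofG1]
    · exact uCoc_rel hdM (ofG1 γ) x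

/-! ### the Hecke algebra of `S₂(Γ₁(M))` is a finitely generated `ℤ`-module -/

variable (M)

/-- diamond operators, `T_p` (`p ∤ M` prime) and `U_d` (`d ∣ M`) -/
def g1HeckeGens : Set (Module.End ℂ (S2 (Gamma1 M))) :=
  {T | (∃ u : (ZMod M)ˣ, T = diamond 2 u) ∨
    (∃ (p : ℕ) (hp : p.Prime) (hpM : ¬ p ∣ M), T = heckeT1 2 hp hpM) ∨
    (∃ (d : ℕ) (hdM : d ∣ M), T = heckeUd 2 hdM)}

/-- the `ℤ`-algebra generated by all diamond operators, `T_p` and `U_d` on `S₂(Γ₁(M))` -/
def g1HeckeAlg : Subalgebra ℤ (Module.End ℂ (S2 (Gamma1 M))) :=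
  Algebra.adjoin ℤ (g1HeckeGens M)

variable {M}

theorem diamond_mem_g1HeckeAlg (u : (ZMod M)ˣ) : diamond 2 u ∈ g1HeckeAlg M :=
  Algebra.subset_adjoin (Or.inl ⟨u, rfl⟩)

theorem heckeT1_mem_g1HeckeAlg {p : ℕ} (hp : p.Prime) (hpM : ¬ p ∣ M) :
    heckeT1 2 hp hpM ∈ g1HeckeAlg M :=
  Algebra.subset_adjoin (Or.inr (Or.inl ⟨p, hp, hpM, rfl⟩))

theorem heckeUd_mem_g1HeckeAlg {d : ℕ} (hdM : d ∣ M) : heckeUd 2 hdM ∈ g1HeckeAlg M :=
  Algebra.subset_adjoin (Or.inr (Or.inr ⟨d, hdM, rfl⟩))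

variable (M)

/-- **the Hecke algebra of `S₂(Γ₁(M))` is a finitely generated `ℤ`-module** -/
theorem finite_g1HeckeAlg : Module.Finite ℤ (g1HeckeAlg M) := by
  refine finite_adjoin_of_periodLattice (g1HeckeGens M) ?_
  rintro T (⟨u, rfl⟩ | ⟨p, hp, hpM, rfl⟩ | ⟨d, hdM, rfl⟩)
  · exact diamond_comp_mem u
  · exact heckeT1_comp_mem hp hpM
  · exact heckeUd_comp_mem hdM

/-! ### the coefficient functionals -/

/-- The `n`-th `q`-coefficient as a linear functional on `S₂(Γ₁(M))`. -/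
def coeffFun (n : ℕ) : S2 (Gamma1 M) →ₗ[ℂ] ℂ where
  toFun f := qCoeff f n
  map_add' f g := (isQExp_of_cuspForm f).qCoeff_add (isQExp_of_cuspForm g) n
  map_smul' c f := (isQExp_of_cuspForm f).qCoeff_smul c n

variable {M}

@[simp] theorem coeffFun_apply (n : ℕ) (f : S2 (Gamma1 M)) : coeffFun M n f = qCoeff f n := rfl

variable (M)

theorem coeffFun_zero : coeffFun M 0 = 0 := by
  ext f
  rw [coeffFun_apply, LinearMap.zero_apply]
  exact CuspFormClass.qExpansion_coeff_zero f one_pos (one_mem_strictPeriods_Gamma1 M)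

/-- `T ↦ a_1 ∘ T` on the Hecke algebra. -/
def g1Pairing : (g1HeckeAlg M) →ₗ[ℤ] (S2 (Gamma1 M) →ₗ[ℂ] ℂ) where
  toFun T := (coeffFun M 1).comp (T : Module.End ℂ (S2 (Gamma1 M)))
  map_add' T T' := by
    ext f
    simp only [LinearMap.comp_apply, LinearMap.add_apply]
    rw [show ((T + T' : g1HeckeAlg M) : Module.End ℂ (S2 (Gamma1 M)))
      = (T : Module.End ℂ _) + (T' : Module.End ℂ _) from rfl, LinearMap.add_apply, map_add]
  map_smul' c T := by
    ext f
    simp only [LinearMap.comp_apply, RingHom.id_apply, LinearMap.smul_apply]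
    rw [show ((c • T : g1HeckeAlg M) : Module.End ℂ (S2 (Gamma1 M)))
      = c • (T : Module.End ℂ _) from rfl, LinearMap.smul_apply, map_zsmul]

/-- The `ℤ`-module `a_1 ∘ 𝕋`. -/
def g1Functionals : Submodule ℤ (S2 (Gamma1 M) →ₗ[ℂ] ℂ) :=
  LinearMap.range (g1Pairing M)

theorem g1Functionals_fg : (g1Functionals M).FG := by
  have : Module.Finite ℤ (g1HeckeAlg M) := finite_g1HeckeAlg M
  rw [g1Functionals, LinearMap.range_eq_map]
  exact Submodule.FG.map _ Module.Finite.fg_top

variable {M}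

/-- `a_1 ∘ 𝕋` is stable under precomposition with elements of the Hecke algebra. -/
theorem comp_mem_g1Functionals {φ : S2 (Gamma1 M) →ₗ[ℂ] ℂ}
    (hφ : φ ∈ g1Functionals M) {T₀ : Module.End ℂ (S2 (Gamma1 M))}
    (hT₀ : T₀ ∈ g1HeckeAlg M) : φ.comp T₀ ∈ g1Functionals M := by
  obtain ⟨T, rfl⟩ := hφ
  refine ⟨T * ⟨T₀, hT₀⟩, ?_⟩
  ext f
  rfl

variable (M)

/-- Every coefficient functional lies in `a_1 ∘ 𝕋`. -/
theorem coeffFun_mem_g1Functionals (n : ℕ) : coeffFun M n ∈ g1Functionals M := by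
  induction n using Nat.strong_induction_on with
  | _ n ih =>
    rcases Nat.lt_or_ge n 2 with hn | hn
    · interval_cases n
      · rw [coeffFun_zero]; exact Submodule.zero_mem _
      · refine ⟨1, ?_⟩
        ext f
        rfl
    · -- `n = m * p` with `p` the least prime factor
      have hn1 : n ≠ 1 := by omega
      have hp : (n.minFac).Prime := Nat.minFac_prime hn1
      obtain ⟨m, hm⟩ : n.minFac ∣ n := Nat.minFac_dvd n
      set p := n.minFac with hpdef
      have hp2 : 2 ≤ p := hp.two_le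
      have hm0 : 0 < m := by
        rcases Nat.eq_zero_or_pos m with h | h
        · rw [h, mul_zero] at hm; omega
        · exact h
      have hmn : m < n := by
        rw [hm]; nlinarith
      have hnm : n = m * p := by rw [hm, mul_comm]
      by_cases hpM : p ∣ M
      · -- `a_n = a_m ∘ U_p`
        have := comp_mem_g1Functionals (ih m hmn) (heckeUd_mem_g1HeckeAlg hpM)
        convert this using 1
        ext f
        rw [LinearMap.comp_apply, coeffFun_apply, coeffFun_apply, qCoeff_heckeUd, hnm]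
      · -- `a_n = a_m ∘ T_p - [p ∣ m] p a_{m/p} ∘ ⟨p⟩`
        have h1 := comp_mem_g1Functionals (ih m hmn) (heckeT1_mem_g1HeckeAlg hp hpM)
        by_cases hpm : p ∣ m
        · have hmp : m / p < n := lt_of_le_of_lt (Nat.div_le_self m p) hmn
          have h2 := Submodule.smul_mem (g1Functionals M) (p : ℤ)
            (comp_mem_g1Functionals (ih (m / p) hmp)
              (diamond_mem_g1HeckeAlg (pUnit M p ((Nat.Prime.coprime_iff_not_dvd hp).mpr hpM))))
          have h3 := Submodule.sub_mem _ h1 h2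
          convert h3 using 1
          ext f
          rw [LinearMap.sub_apply, LinearMap.comp_apply, LinearMap.smul_apply,
            LinearMap.comp_apply, coeffFun_apply, coeffFun_apply, coeffFun_apply,
            qCoeff_heckeT1 hp hpM, if_pos hpm, hnm]
          simp
        · convert h1 using 1
          ext f
          rw [LinearMap.comp_apply, coeffFun_apply, coeffFun_apply,
            qCoeff_heckeT1 hp hpM, if_neg hpm, hnm, add_zero]

/-- **The `ℤ`-span of the coefficient functionals on `S₂(Γ₁(M))` is finitely generated.** -/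
theorem span_coeffFun_fg :
    (Submodule.span ℤ (Set.range (coeffFun M)) :
      Submodule ℤ (S2 (Gamma1 M) →ₗ[ℂ] ℂ)).FG := by
  have hle : Submodule.span ℤ (Set.range (coeffFun M)) ≤ g1Functionals M := by
    rw [Submodule.span_le]
    rintro _ ⟨n, rfl⟩
    exact coeffFun_mem_g1Functionals M n
  have h1 : IsNoetherian ℤ ↥(g1Functionals M) :=
    isNoetherian_of_fg_of_noetherian _ (g1Functionals_fg M)
  have h2 : IsNoetherian ℤ ↥(Submodule.span ℤ (Set.range (coeffFun M))) :=
    isNoetherian_of_le hle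
  exact (Submodule.fg_top _).mp (IsNoetherian.noetherian ⊤)

/-- `q`-expansion principle on `S₂(Γ₁(M))`. -/
theorem eq_zero_of_coeffFun_eq_zero (f : S2 (Gamma1 M)) (h : ∀ n, coeffFun M n f = 0) : f = 0 := by
  apply DFunLike.coe_injective
  refine (isQExp_of_cuspForm f).ext (isQExp_of_cuspForm (0 : S2 (Gamma1 M))) fun n => ?_
  have h0 := h n
  rw [coeffFun_apply] at h0
  rw [h0]
  symm
  have := (coeffFun M n).map_zero
  rwa [coeffFun_apply] at this

/-- **Integral structure from `Aut(ℂ)`-stability**: if the set of `q`-expansions of `S₂(Γ₁(M))` is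
stable under all field automorphisms of `ℂ` (acting on the coefficients), then `S₂(Γ₁(M))` is
spanned over `ℂ` by the forms with integral `q`-expansion. -/
theorem span_intLattice_eq_top_of_stable
    (hstab : ∀ (τ : ℂ ≃+* ℂ) (f : S2 (Gamma1 M)),
      ∃ g : S2 (Gamma1 M), ∀ n, qCoeff g n = τ (qCoeff f n)) :
    Submodule.span ℂ ((Iface.intLattice M 2 : Submodule ℤ (CuspForm (Gamma1 M) 2)) :
      Set (CuspForm (Gamma1 M) 2)) = ⊤ := by
  have h := Fermat.Agent.ProgramR.Descent.span_int_coeff_eq_top (coeffFun M)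
    (eq_zero_of_coeffFun_eq_zero M) hstab (span_coeffFun_fg M)
  rw [eq_top_iff, ← h]
  refine Submodule.span_mono fun f hf => ?_
  exact Submodule.subset_span hf

end Fermat.Agent.S48lib.X1.Forms
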