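/-
S48lib / X1 / Forms / TauF (helper7).
Generic `Γ ≤ SL(2,ℤ)` of finite index containing `T`, with a function `h₀ ∈ WH0 Γ` separating the
cosets of `Γ`.  If for a field automorphism `τ` of `ℂ` (and its inverse) the coefficientwise
conjugate of the `q`-expansion of `h₀` is again the `q`-expansion of an element of
`Frac (WH0 Γ)`, then `τ` induces a `τ`-semilinear ring automorphism `tauA` of `WH0 Γ` acting on
`q`-expansions coefficientwise and fixing `j`.
(PARAM port of ProgramR/Descent/TauF from `Γ₀(N)`, generator `j_N`, to `(Γ, h₀)`.)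
-/
import Mathlib
import Fermat.Agent.S48lib.X1.HeckeJ.QExpGen
import Fermat.Agent.S48lib.X1.Wp.ChartGen

set_option autoImplicit false
set_option linter.unusedSectionVars false

noncomputable section

namespace Fermat.Agent.S48lib.X1.Forms

open Polynomial CongruenceSubgroup ModularCurve UpperHalfPlane Module
open Fermat.Agent.ProgramR Fermat.Agent.ProgramR.QExp Fermat.Agent.S48lib.X1.HeckeJ
  Fermat.Agent.S48lib.X1.Wp
open scoped MatrixGroups

attribute [local instance] FractionRing.liftAlgebra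

variable (Γ : Subgroup SL(2, ℤ)) [Fintype (SL(2, ℤ) ⧸ Γ)]

/-! ### The primitive element -/

variable {Γ} in
/-- A separating function generates the function field over `ℂ(j)`. -/
theorem adjoin_eq_top_of_separates {h : WH0 Γ} (hsep : Separates Γ h) :
    IntermediateField.adjoin RatC {algebraMap (WH0 Γ) (WH0.FunField Γ) h} = ⊤ := by
  classical
  rw [Field.primitive_element_iff_minpoly_natDegree_eq]
  have hint : IsIntegral ℂ[X] h := Algebra.IsIntegral.isIntegral h
  apply le_antisymm (minpoly.natDegree_le _)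
  rw [minpoly.isIntegrallyClosed_eq_field_fractions RatC (WH0.FunField Γ) hint,
    (minpoly.monic hint).natDegree_map]
  refine (WH0.finrank_funField_le Γ).trans ?_
  -- `card ≤ natDegree (minpoly h)`: the conjugates of `h` are distinct roots
  set A := wh0Chart hsep
  set m := minpoly ℂ[X] h
  have hm : m.Monic := minpoly.monic hint
  set m' : Hol[X] := m.map A.φ
  have hm' : m'.Monic := hm.map _
  have hroot : ∀ x : SL(2, ℤ) ⧸ Γ, m'.IsRoot (A.σ x h) := by
    intro x
    rw [Polynomial.IsRoot.def, Polynomial.eval_map]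
    have h1 : A.φ = (A.σ x).comp (algebraMap ℂ[X] (WH0 Γ)) :=
      RingHom.ext (fun p => (A.σ_φ x p).symm)
    rw [h1, ← Polynomial.hom_eval₂, ← Polynomial.aeval_def, minpoly.aeval, map_zero]
  have hinj : Function.Injective (fun x : SL(2, ℤ) ⧸ Γ => A.σ x h) := by
    intro x y hxy
    induction x using QuotientGroup.induction_on with
    | H g =>
      induction y using QuotientGroup.induction_on with
      | H g' =>
        rw [QuotientGroup.eq]
        exact hsep g g' hxy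
  have hsub : (Finset.univ.image (fun x : SL(2, ℤ) ⧸ Γ => A.σ x h)).val ⊆ m'.roots := by
    intro f hf
    rw [Finset.mem_val, Finset.mem_image] at hf
    obtain ⟨x, -, rfl⟩ := hf
    exact (Polynomial.mem_roots hm'.ne_zero).2 (hroot x)
  have h3 := Polynomial.card_le_degree_of_subset_roots hsub
  rw [Finset.card_image_of_injective _ hinj, Finset.card_univ, hm.natDegree_map] at h3
  exact h3

/-! ### The stable subfield -/

variable (hT : ModularGroup.T ^ ((1 : ℕ) : ℤ) ∈ Γ)

/-- the subfield of `Frac (WH0 Γ)` of those `h` for which `τ(qExp h)` is again a `q`-expansion -/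
def stableField (τ : ℂ →+* ℂ) : Subfield (WH0.FunField Γ) :=
  ((qExpFFW Γ 1 hT).fieldRange.comap (coeffMap τ)).comap (qExpFFW Γ 1 hT)

theorem mem_stableField (τ : ℂ →+* ℂ) (h : WH0.FunField Γ) :
    h ∈ stableField Γ hT τ ↔
      ∃ h' : WH0.FunField Γ, qExpFFW Γ 1 hT h' = coeffMap τ (qExpFFW Γ 1 hT h) := by
  unfold stableField
  rw [Subfield.mem_comap, Subfield.mem_comap, RingHom.mem_fieldRange]

theorem coeffMap_C' (τ : ℂ →+* ℂ) (c : ℂ) :
    coeffMap τ (HahnSeries.C c : LaurentSeries ℂ) = HahnSeries.C (τ c) := by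
  show coeffMap τ (HahnSeries.single 0 c) = HahnSeries.single 0 (τ c)
  exact coeffMap_single τ 0 c

theorem coeffMap_jqModC' (τ : ℂ →+* ℂ) : coeffMap τ (jqModC ℂ) = jqModC ℂ :=
  map_jqModC τ

theorem const_mem_stableField (τ : ℂ →+* ℂ) (c : ℂ) :
    algebraMap _ (WH0.FunField Γ) (algebraMap ℂ (WH0 Γ) c) ∈ stableField Γ hT τ := by
  rw [mem_stableField]
  refine ⟨algebraMap _ (WH0.FunField Γ) (algebraMap ℂ (WH0 Γ) (τ c)), ?_⟩
  rw [qExpFFW_const, qExpFFW_const, coeffMap_C']

theorem j_mem_stableField (τ : ℂ →+* ℂ) :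
    algebraMap _ (WH0.FunField Γ) (WH0.j Γ) ∈ stableField Γ hT τ := by
  rw [mem_stableField]
  refine ⟨algebraMap _ (WH0.FunField Γ) (WH0.j Γ), ?_⟩
  rw [qExpFFW_j, coeffMap_jqModC']

theorem algebraMap_poly_mem_stableField (τ : ℂ →+* ℂ) (p : ℂ[X]) :
    algebraMap _ (WH0.FunField Γ) (algebraMap ℂ[X] (WH0 Γ) p) ∈ stableField Γ hT τ := by
  induction p using Polynomial.induction_on' with
  | add p q hp hq =>
    rw [map_add, map_add]
    exact (stableField Γ hT τ).add_mem hp hq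
  | monomial n a =>
    rw [← Polynomial.C_mul_X_pow_eq_monomial, map_mul, map_mul, map_pow, map_pow]
    refine (stableField Γ hT τ).mul_mem ?_ ((stableField Γ hT τ).pow_mem ?_ n)
    · have : algebraMap ℂ[X] (WH0 Γ) (C a) = algebraMap ℂ (WH0 Γ) a := by
        rw [← Polynomial.algebraMap_eq, ← IsScalarTower.algebraMap_apply ℂ ℂ[X] (WH0 Γ)]
      rw [this]
      exact const_mem_stableField Γ hT τ a
    · have : algebraMap ℂ[X] (WH0 Γ) X = WH0.j Γ := by
        rw [WH0.algebraMap_poly, Polynomial.aeval_X]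
      rw [this]
      exact j_mem_stableField Γ hT τ

theorem algebraMap_ratC_mem_stableField (τ : ℂ →+* ℂ) (r : RatC) :
    (algebraMap RatC (WH0.FunField Γ) r : WH0.FunField Γ) ∈ stableField Γ hT τ := by
  obtain ⟨p, q, -, rfl⟩ := IsFractionRing.div_surjective (A := ℂ[X]) r
  rw [map_div₀]
  have key : ∀ s : ℂ[X], (algebraMap RatC (WH0.FunField Γ)
      (algebraMap ℂ[X] RatC s) : WH0.FunField Γ) ∈ stableField Γ hT τ := by
    intro s
    rw [← IsScalarTower.algebraMap_apply ℂ[X] RatC (WH0.FunField Γ),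
      IsScalarTower.algebraMap_apply ℂ[X] (WH0 Γ) (WH0.FunField Γ)]
    exact algebraMap_poly_mem_stableField Γ hT τ s
  exact (stableField Γ hT τ).div_mem (key p) (key q)

variable {Γ}

/-- the hypothesis on the generator: its conjugate `q`-expansion is a `q`-expansion -/
def GenStable (h₀ : WH0 Γ) (τ : ℂ →+* ℂ) : Prop :=
  ∃ y : WH0.FunField Γ, qExpFFW Γ 1 hT y = coeffMap τ (qExpW Γ 1 hT h₀)

theorem stableField_eq_top {h₀ : WH0 Γ} (hsep : Separates Γ h₀) (τ : ℂ →+* ℂ)
    (hgen : GenStable hT h₀ τ) : stableField Γ hT τ = ⊤ := by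
  let S' : IntermediateField RatC (WH0.FunField Γ) :=
    { (stableField Γ hT τ : Subfield (WH0.FunField Γ)) with
      algebraMap_mem' := algebraMap_ratC_mem_stableField Γ hT τ }
  have hle : (⊤ : IntermediateField RatC (WH0.FunField Γ)) ≤ S' := by
    rw [← adjoin_eq_top_of_separates hsep, IntermediateField.adjoin_le_iff,
      Set.singleton_subset_iff]
    show algebraMap (WH0 Γ) (WH0.FunField Γ) h₀ ∈ stableField Γ hT τ
    rw [mem_stableField]
    obtain ⟨y, hy⟩ := hgen
    exact ⟨y, by rw [hy, qExpFFW_algebraMap]; rfl⟩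
  rw [eq_top_iff]
  intro h _
  exact hle (IntermediateField.mem_top (x := h))

/-- The ring endomorphism of `Frac (WH0 Γ)` induced by `τ` acting on `q`-expansion
coefficients. -/
def tauFHom {h₀ : WH0 Γ} (hsep : Separates Γ h₀) (τ : ℂ →+* ℂ) (hgen : GenStable hT h₀ τ) :
    WH0.FunField Γ →+* WH0.FunField Γ :=
  ((qExpFFWEquiv Γ hT).symm : (qExpFFW Γ 1 hT).fieldRange →+* WH0.FunField Γ).comp
    (((coeffMap τ).comp (qExpFFW Γ 1 hT)).codRestrict (qExpFFW Γ 1 hT).fieldRange (fun h => by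
      have h1 : h ∈ stableField Γ hT τ := by
        rw [stableField_eq_top hT hsep τ hgen]
        exact Subfield.mem_top h
      exact h1))

theorem qExpFFW_tauFHom {h₀ : WH0 Γ} (hsep : Separates Γ h₀) (τ : ℂ →+* ℂ)
    (hgen : GenStable hT h₀ τ) (h : WH0.FunField Γ) :
    qExpFFW Γ 1 hT (tauFHom hT hsep τ hgen h) = coeffMap τ (qExpFFW Γ 1 hT h) := by
  have h1 := coe_qExpFFWEquiv (Γ := Γ) (hT := hT) (tauFHom hT hsep τ hgen h)
  rw [← h1]
  simp only [tauFHom, RingHom.coe_comp, Function.comp_apply, RingHom.coe_coe,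
    RingEquiv.apply_symm_apply]
  rfl

/-- `tauFHom` on polynomials in `j`: the coefficients are conjugated. -/
theorem tauFHom_algebraMap_poly {h₀ : WH0 Γ} (hsep : Separates Γ h₀) (τ : ℂ →+* ℂ)
    (hgen : GenStable hT h₀ τ) (p : ℂ[X]) :
    tauFHom hT hsep τ hgen (algebraMap ℂ[X] (WH0.FunField Γ) p) =
      algebraMap ℂ[X] (WH0.FunField Γ) (p.map τ) := by
  have hC : ∀ a : ℂ, tauFHom hT hsep τ hgen (algebraMap ℂ[X] (WH0.FunField Γ) (C a)) =
      algebraMap ℂ[X] (WH0.FunField Γ) (C (τ a)) := by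
    intro a
    apply qExpFFW_injective Γ 1 hT
    rw [qExpFFW_tauFHom]
    have e : ∀ b : ℂ, algebraMap ℂ[X] (WH0.FunField Γ) (C b) =
        algebraMap _ (WH0.FunField Γ) (algebraMap ℂ (WH0 Γ) b) := by
      intro b
      rw [IsScalarTower.algebraMap_apply ℂ[X] (WH0 Γ) (WH0.FunField Γ), ← Polynomial.algebraMap_eq,
        ← IsScalarTower.algebraMap_apply ℂ ℂ[X] (WH0 Γ)]
    rw [e, e, qExpFFW_const, qExpFFW_const, coeffMap_C']
  have hX : tauFHom hT hsep τ hgen (algebraMap ℂ[X] (WH0.FunField Γ) X) =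
      algebraMap ℂ[X] (WH0.FunField Γ) X := by
    apply qExpFFW_injective Γ 1 hT
    rw [qExpFFW_tauFHom]
    have e : algebraMap ℂ[X] (WH0.FunField Γ) X = algebraMap _ (WH0.FunField Γ) (WH0.j Γ) := by
      rw [IsScalarTower.algebraMap_apply ℂ[X] (WH0 Γ) (WH0.FunField Γ), WH0.algebraMap_poly,
        Polynomial.aeval_X]
    rw [e, qExpFFW_j, coeffMap_jqModC']
  induction p using Polynomial.induction_on' with
  | add p q hp hq => rw [map_add, map_add, hp, hq, Polynomial.map_add, map_add]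
  | monomial n a =>
    rw [← Polynomial.C_mul_X_pow_eq_monomial, map_mul, map_mul, map_pow, map_pow, hC, hX,
      Polynomial.map_mul, Polynomial.map_pow, Polynomial.map_C, Polynomial.map_X, map_mul, map_pow]

/-! ### The induced endomorphism of `WH0 Γ` -/

/-- `tauFHom` preserves `WH0 Γ` (the integral closure of `ℂ[j]`). -/
theorem tauFHom_mem_range {h₀ : WH0 Γ} (hsep : Separates Γ h₀) (τ : ℂ →+* ℂ)
    (hgen : GenStable hT h₀ τ) (x : WH0 Γ) :
    tauFHom hT hsep τ hgen (algebraMap (WH0 Γ) (WH0.FunField Γ) x) ∈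
      (algebraMap (WH0 Γ) (WH0.FunField Γ)).range := by
  have hint : IsIntegral ℂ[X] x := Algebra.IsIntegral.isIntegral x
  have h1 : IsIntegral ℂ[X] (algebraMap (WH0 Γ) (WH0.FunField Γ) x) :=
    hint.map (IsScalarTower.toAlgHom ℂ[X] (WH0 Γ) (WH0.FunField Γ))
  have h2 : IsIntegral ℂ[X] (tauFHom hT hsep τ hgen (algebraMap (WH0 Γ) (WH0.FunField Γ) x)) := by
    refine h1.map_of_comp_eq (Polynomial.mapRingHom τ) (tauFHom hT hsep τ hgen) ?_
    ext p
    · simp only [RingHom.coe_comp, Function.comp_apply, Polynomial.coe_mapRingHom]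
      rw [tauFHom_algebraMap_poly]
    · simp only [RingHom.coe_comp, Function.comp_apply, Polynomial.coe_mapRingHom]
      rw [tauFHom_algebraMap_poly]
  obtain ⟨y, hy⟩ := (IsIntegralClosure.isIntegral_iff (A := WH0 Γ)).1 h2
  exact ⟨y, hy⟩

/-- `WH0 Γ` as a subring of its fraction field -/
def rangeEquiv : WH0 Γ ≃+* (algebraMap (WH0 Γ) (WH0.FunField Γ)).range :=
  RingEquiv.ofBijective (algebraMap (WH0 Γ) (WH0.FunField Γ)).rangeRestrict
    ⟨fun a b h => IsFractionRing.injective (WH0 Γ) (WH0.FunField Γ) (congrArg Subtype.val h),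
     fun ⟨y, hy⟩ => by
      obtain ⟨x, rfl⟩ := hy
      exact ⟨x, rfl⟩⟩

theorem coe_rangeEquiv (x : WH0 Γ) :
    ((rangeEquiv (Γ := Γ) x : (algebraMap (WH0 Γ) (WH0.FunField Γ)).range) : WH0.FunField Γ) =
      algebraMap (WH0 Γ) (WH0.FunField Γ) x := rfl

/-- **the `τ`-semilinear endomorphism of `WH0 Γ`** acting on `q`-expansions coefficientwise -/
def tauA {h₀ : WH0 Γ} (hsep : Separates Γ h₀) (τ : ℂ →+* ℂ) (hgen : GenStable hT h₀ τ) :
    WH0 Γ →+* WH0 Γ :=
  ((rangeEquiv (Γ := Γ)).symm : (algebraMap (WH0 Γ) (WH0.FunField Γ)).range →+* WH0 Γ).comp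
    (((tauFHom hT hsep τ hgen).comp (algebraMap (WH0 Γ) (WH0.FunField Γ))).codRestrict
      (algebraMap (WH0 Γ) (WH0.FunField Γ)).range (fun x => tauFHom_mem_range hT hsep τ hgen x))

theorem algebraMap_tauA {h₀ : WH0 Γ} (hsep : Separates Γ h₀) (τ : ℂ →+* ℂ)
    (hgen : GenStable hT h₀ τ) (x : WH0 Γ) :
    algebraMap (WH0 Γ) (WH0.FunField Γ) (tauA hT hsep τ hgen x) =
      tauFHom hT hsep τ hgen (algebraMap (WH0 Γ) (WH0.FunField Γ) x) := by
  have h1 := coe_rangeEquiv (Γ := Γ) (tauA hT hsep τ hgen x)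
  rw [← h1]
  simp only [tauA, RingHom.coe_comp, Function.comp_apply, RingHom.coe_coe,
    RingEquiv.apply_symm_apply]
  rfl

/-- **`tauA` acts on `q`-expansions through the coefficients.** -/
theorem qExpW_tauA {h₀ : WH0 Γ} (hsep : Separates Γ h₀) (τ : ℂ →+* ℂ)
    (hgen : GenStable hT h₀ τ) (x : WH0 Γ) :
    qExpW Γ 1 hT (tauA hT hsep τ hgen x) = coeffMap τ (qExpW Γ 1 hT x) := by
  have h1 := qExpFFW_algebraMap Γ 1 hT (tauA hT hsep τ hgen x)
  rw [algebraMap_tauA, qExpFFW_tauFHom, qExpFFW_algebraMap] at h1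
  rw [qExpW_apply, qExpW_apply]
  exact h1.symm

theorem tauA_algebraMap_poly {h₀ : WH0 Γ} (hsep : Separates Γ h₀) (τ : ℂ →+* ℂ)
    (hgen : GenStable hT h₀ τ) (p : ℂ[X]) :
    tauA hT hsep τ hgen (algebraMap ℂ[X] (WH0 Γ) p) = algebraMap ℂ[X] (WH0 Γ) (p.map τ) := by
  apply IsFractionRing.injective (WH0 Γ) (WH0.FunField Γ)
  rw [algebraMap_tauA, ← IsScalarTower.algebraMap_apply ℂ[X] (WH0 Γ) (WH0.FunField Γ),
    tauFHom_algebraMap_poly, ← IsScalarTower.algebraMap_apply ℂ[X] (WH0 Γ) (WH0.FunField Γ)]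

theorem tauA_j {h₀ : WH0 Γ} (hsep : Separates Γ h₀) (τ : ℂ →+* ℂ)
    (hgen : GenStable hT h₀ τ) : tauA hT hsep τ hgen (WH0.j Γ) = WH0.j Γ := by
  have h := tauA_algebraMap_poly hT hsep τ hgen X
  rwa [Polynomial.map_X, WH0.algebraMap_poly, Polynomial.aeval_X] at h

/-- `tauA` maps a root of `Q ∈ ℂ[j][Y]` to a root of the conjugate polynomial. -/
theorem aeval_tauA {h₀ : WH0 Γ} (hsep : Separates Γ h₀) (τ : ℂ →+* ℂ)
    (hgen : GenStable hT h₀ τ) (x : WH0 Γ) (Q : ℂ[X][X]) (hQ : Polynomial.aeval x Q = 0) :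
    Polynomial.aeval (tauA hT hsep τ hgen x) (Q.map (Polynomial.mapRingHom τ)) = 0 := by
  rw [Polynomial.aeval_def, Polynomial.eval₂_map]
  have h1 : (algebraMap ℂ[X] (WH0 Γ)).comp (Polynomial.mapRingHom τ) =
      (tauA hT hsep τ hgen).comp (algebraMap ℂ[X] (WH0 Γ)) := by
    ext p
    · simp only [RingHom.coe_comp, Function.comp_apply, Polynomial.coe_mapRingHom]
      rw [tauA_algebraMap_poly]
    · simp only [RingHom.coe_comp, Function.comp_apply, Polynomial.coe_mapRingHom]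
      rw [tauA_algebraMap_poly]
  rw [h1, ← Polynomial.hom_eval₂, ← Polynomial.aeval_def, hQ, map_zero]

end Fermat.Agent.S48lib.X1.Forms
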