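/-
S48lib / X1 / Forms / FrickeExp (helper7).
The `q`-expansions at `i∞` of the Fricke functions `f_{(0,d)} ∈ WH0 (±Γ₁(M))` and the action of
`Aut(ℂ)` on them: `τ (qExp f_{(0,1)}) = qExp f_{(0,e)}` where `τ(e(1/M)) = e(e/M)`.
Consequence: every field automorphism of `ℂ` induces a semilinear endomorphism of `WH0 (±Γ₁(M))`
acting on `q`-expansions coefficientwise (`tauPm`).
-/
import Mathlib
import Fermat.Agent.S48lib.X1.Wp.Sep
import Fermat.Agent.S48lib.X1.Wp.QCoeff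
import Fermat.Agent.S48lib.X1.Forms.TauF
import Fermat.Agent.ProgramR.Descent.QExpR7

set_option autoImplicit false
set_option linter.unusedSectionVars false

noncomputable section

namespace Fermat.Agent.S48lib.X1.Forms

open Complex Filter Function Polynomial Module
open UpperHalfPlane hiding I
open ModularForm EisensteinSeries MatrixGroups CongruenceSubgroup ModularCurve
open Fermat.Agent.ProgramR Fermat.Agent.ProgramR.QExp Fermat.Agent.ProgramR.LevelOne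
  Fermat.Agent.ProgramR.Descent Fermat.Agent.S48lib.X1.HeckeJ Fermat.Agent.S48lib.X1.Wp
open scoped Real Topology Manifold

local notation "Δ" => ModularForm.discriminant

variable {M : ℕ} [NeZero M]

theorem T_pow_one_mem_pmGamma1 (M : ℕ) : ModularGroup.T ^ ((1 : ℕ) : ℤ) ∈ pmGamma1 M := by
  rw [Nat.cast_one, zpow_one, mem_pmGamma1]
  simp [ModularGroup.T]

/-! ### The functions `f_{(0,d)}` -/

/-- the vector `(0, d)` -/
def v0 (d : ℤ) : Fin 2 → ℤ := ![0, d]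

@[simp] lemma v0_zero (d : ℤ) : v0 d 0 = 0 := rfl
@[simp] lemma v0_one (d : ℤ) : v0 d 1 = d := rfl

lemma nz_v0 {d : ℤ} (hd : ¬ (M : ℤ) ∣ d) : NZ M (v0 d) := fun h => hd h.2

lemma fricke_v0_smul (d : ℤ) {γ : SL(2, ℤ)} (hγ : γ ∈ pmGamma1 M) (τ : ℍ) :
    fricke M (v0 d) (γ • τ) = fricke M (v0 d) τ := by
  rw [fricke_smul]
  rw [mem_pmGamma1_iff_dvd] at hγ
  have e0 : rowMul (v0 d) γ 0 = d * γ 1 0 := by rw [rowMul_zero]; simp
  have e1 : rowMul (v0 d) γ 1 = d * γ 1 1 := by rw [rowMul_one]; simp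
  obtain ⟨h0, h1 | h1⟩ := hγ
  · refine congrFun (fricke_congr M fun i => ?_) τ
    fin_cases i
    · show (M : ℤ) ∣ rowMul (v0 d) γ 0 - v0 d 0
      rw [e0, v0_zero, sub_zero]
      exact h0.mul_left d
    · show (M : ℤ) ∣ rowMul (v0 d) γ 1 - v0 d 1
      rw [e1, v0_one]
      have : d * γ 1 1 - d = d * (γ 1 1 - 1) := by ring
      rw [this]
      exact h1.mul_left d
  · rw [← fricke_neg M (v0 d)]
    refine congrFun (fricke_congr M fun i => ?_) τ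
    fin_cases i
    · show (M : ℤ) ∣ rowMul (v0 d) γ 0 - (-v0 d) 0
      rw [e0, Pi.neg_apply, v0_zero, neg_zero, sub_zero]
      exact h0.mul_left d
    · show (M : ℤ) ∣ rowMul (v0 d) γ 1 - (-v0 d) 1
      rw [e1, Pi.neg_apply, v0_one]
      have : d * γ 1 1 - -d = d * (γ 1 1 + 1) := by ring
      rw [this]
      exact h1.mul_left d

theorem isWH0_fricke_v0 {d : ℤ} (hd : ¬ (M : ℤ) ∣ d) : IsWH0 (pmGamma1 M) (fricke M (v0 d)) where
  mdiff := mdifferentiable_fricke (nz_v0 hd)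
  smul_eq := fun _ hγ z => fricke_v0_smul d hγ z
  exists_bdd := (isWH0_fricke (nz_v0 hd)).exists_bdd

/-- `f_{(0,d)}` as an element of `WH0 (±Γ₁(M))` -/
def frickeD (d : ℤ) (hd : ¬ (M : ℤ) ∣ d) : WH0 (pmGamma1 M) :=
  ⟨fricke M (v0 d), isWH0_fricke_v0 hd⟩

lemma not_dvd_one (hM : 1 < M) : ¬ (M : ℤ) ∣ 1 := by
  intro h
  have h2 := Int.le_of_dvd one_pos h
  omega

theorem frickeWH0_eq (hM : 1 < M) : frickeWH0 hM = frickeD 1 (not_dvd_one hM) := rfl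

/-! ### The expansion of `pwOf M 0 d` in `q = e(τ)` -/

lemma zOf_emod (d : ℤ) : zOf M (d % (M : ℤ)) = zOf M d := by
  have hM : (M : ℂ) ≠ 0 := Nat.cast_ne_zero.2 (NeZero.ne M)
  have h : (d % (M : ℤ) : ℤ) = d - (M : ℤ) * (d / (M : ℤ)) := by
    have := Int.emod_add_mul_ediv d (M : ℤ)
    linarith
  rw [zOf, zOf, h]
  have e : (((d - (M : ℤ) * (d / (M : ℤ)) : ℤ) : ℂ)) / M = (d : ℂ) / M + ((-(d / (M : ℤ)) : ℤ) : ℂ) := by
    push_cast
    field_simp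
    ring
  rw [e, ee_add, ee_intCast, mul_one]

lemma wOf_zero (d : ℤ) (t : ℂ) : wOf M 0 d t = zOf M d := by
  rw [wOf, zOf]
  simp

lemma pwOf_zero_emod (d : ℤ) (t : ℂ) : pwOf M 0 (d % (M : ℤ)) t = pwOf M 0 d t := by
  rw [pwOf, pwOf, wOf_zero, wOf_zero, zOf_emod]

lemma pwCoeff_zero_emod (d : ℤ) (n : ℕ) : pwCoeff M 0 (d % (M : ℤ)) n = pwCoeff M 0 d n := by
  simp only [pwCoeff, lamG, zOf_emod]

/-- the product formula with unreduced `d` -/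
lemma fricke_v0_mul_discriminant {d : ℤ} (hd : ¬ (M : ℤ) ∣ d) (τ : ℍ) :
    fricke M (v0 d) τ * Δ τ = E₄ τ * E₆ τ * pwOf M 0 d τ := by
  have h := fricke_mul_discriminant (nz_v0 (M := M) hd) τ
  rw [v0_zero, v0_one, Int.zero_emod, pwOf_zero_emod] at h
  exact h

lemma pwCoeff_eq_zero_of_not_dvd (b : ℤ) {n : ℕ} (hn : ¬ M ∣ n) : pwCoeff M 0 b n = 0 := by
  have hn0 : n ≠ 0 := by
    rintro rfl
    exact hn (dvd_zero _)
  rw [pwCoeff, if_neg hn0]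
  refine Finset.sum_eq_zero fun x hx => ?_
  have hx' := Nat.mem_divisorsAntidiagonal.1 hx
  have hd : ¬ (M : ℤ) ∣ (x.1 : ℤ) := by
    intro h
    apply hn
    have : M ∣ x.1 := Int.natCast_dvd_natCast.1 h
    rw [← hx'.1]
    exact this.mul_right _
  rw [lamG, ind1, ind2, ind3]
  simp [hd]

/-- the coefficients of the `q`-expansion of `pwOf M 0 b` -/
def cF (M : ℕ) [NeZero M] (b : ℤ) (n : ℕ) : ℂ := pwCoeff M 0 b (M * n)

theorem hasSum_pwOf_zero (b : ℤ) (τ : ℍ) :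
    HasSum (fun n : ℕ => cF M b n * ee (τ : ℂ) ^ n) (pwOf M 0 b τ) := by
  have h := hasSum_pwOf (M := M) (a := 0) (NeZero.pos M) b τ
  rw [Nat.cast_zero] at h
  have hinj : Function.Injective (fun n : ℕ => M * n) := fun a b h =>
    Nat.eq_of_mul_eq_mul_left (NeZero.pos M) h
  have hzero : ∀ x ∉ Set.range (fun n : ℕ => M * n),
      pwCoeff M 0 b x * ee ((τ : ℂ) / M) ^ x = 0 := by
    intro x hx
    have : ¬ M ∣ x := fun ⟨k, hk⟩ => hx ⟨k, hk.symm⟩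
    rw [pwCoeff_eq_zero_of_not_dvd b this, zero_mul]
  have h2 := (hinj.hasSum_iff hzero).2 h
  have hM : (M : ℂ) ≠ 0 := Nat.cast_ne_zero.2 (NeZero.ne M)
  have e1 : ee ((τ : ℂ) / M) ^ M = ee (τ : ℂ) := by
    rw [← ee_nat_mul]
    congr 1
    field_simp
  refine h2.congr_fun fun n => ?_
  simp only [Function.comp_apply, cF]
  rw [pow_mul, e1]

lemma qParam_one (τ : ℍ) : Function.Periodic.qParam 1 (τ : ℂ) = ee (τ : ℂ) := by
  unfold Function.Periodic.qParam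
  rw [ee]
  congr 1
  push_cast
  ring

lemma pwOf_zero_vadd (b : ℤ) (τ : ℍ) : pwOf M 0 b (((1 : ℝ) +ᵥ τ : ℍ) : ℂ) = pwOf M 0 b τ := by
  rw [pwOf, pwOf, wOf_zero, wOf_zero]
  congr 1
  rw [UpperHalfPlane.coe_vadd, ee_add]
  have : ee ((1 : ℝ) : ℂ) = 1 := by
    have := ee_intCast 1
    simpa using this
  rw [this, one_mul]

theorem isHolPerBdd_pwOf_zero {d : ℤ} (hd : ¬ (M : ℤ) ∣ d) :
    IsHolPerBdd 1 (fun τ : ℍ => pwOf M 0 d τ) where
  holo := by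
    have h := mdifferentiable_pwOf (nz_v0 (M := M) hd)
    simp only [v0_zero, v0_one, Int.zero_emod, pwOf_zero_emod] at h
    exact h
  periodic := by
    apply periodic_comp_ofComplex_of_vadd
    intro τ
    exact pwOf_zero_vadd d τ
  bdd := isBoundedAtImInfty_pwOf (le_refl 0) (Int.natCast_pos.2 (NeZero.pos M))

theorem qExpansion_pwOf_zero {d : ℤ} (hd : ¬ (M : ℤ) ∣ d) :
    qExpansion 1 (fun τ : ℍ => pwOf M 0 d τ) = PowerSeries.mk (cF M d) := by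
  refine qExpansion_eq_of_hasSum one_pos ((isHolPerBdd_pwOf_zero hd).analyticAt one_pos) ?_
  intro τ
  have h := hasSum_pwOf_zero (M := M) d τ
  simp only [smul_eq_mul]
  rw [qParam_one]
  exact h

/-! ### The `q`-expansion of `f_{(0,d)}` -/

/-- the expansion of `Δ` -/
def serD : LaurentSeries ℂ := HahnSeries.ofPowerSeries ℤ ℂ (qExpansion 1 (fun τ : ℍ => Δ τ))

/-- the expansion of `E₄ E₆` -/
def serE : LaurentSeries ℂ :=
  HahnSeries.ofPowerSeries ℤ ℂ (qExpansion 1 (E₄ : ℍ → ℂ)) *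
    HahnSeries.ofPowerSeries ℤ ℂ (qExpansion 1 (E₆ : ℍ → ℂ))

lemma serD_mem : serD ∈ ratSeries := ofPowerSeries_qExpansion_discriminant_mem

lemma serE_mem : serE ∈ ratSeries :=
  ratSeries.mul_mem (ofPowerSeries_qExpansion_E_mem (by norm_num : 3 ≤ 4) (by decide))
    (ofPowerSeries_qExpansion_E_mem (by norm_num : 3 ≤ 6) (by decide))

lemma isHolPerBdd_discriminant : IsHolPerBdd 1 (fun τ : ℍ => Δ τ) := by
  have := isHolPerBdd_of_modularForm (CuspForm.discriminant : CuspForm 𝒮ℒ 12)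
  exact this

lemma isHolPerBdd_E₄ : IsHolPerBdd 1 (E₄ : ℍ → ℂ) := isHolPerBdd_of_modularForm E₄

lemma isHolPerBdd_E₆ : IsHolPerBdd 1 (E₆ : ℍ → ℂ) := isHolPerBdd_of_modularForm E₆

lemma laurentExp_discriminant : laurentExp 1 (fun τ : ℍ => Δ τ) = serD :=
  laurentExp_of_isHolPerBdd one_pos isHolPerBdd_discriminant

lemma laurentExp_E₄_mul_E₆ : laurentExp 1 ((E₄ : ℍ → ℂ) * (E₆ : ℍ → ℂ)) = serE := by
  rw [laurentExp_mul one_pos (IsMeroAtInfty.of_isHolPerBdd isHolPerBdd_E₄)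
    (IsMeroAtInfty.of_isHolPerBdd isHolPerBdd_E₆), laurentExp_of_isHolPerBdd one_pos isHolPerBdd_E₄,
    laurentExp_of_isHolPerBdd one_pos isHolPerBdd_E₆]
  rfl

lemma serD_ne_zero : serD ≠ 0 := by
  rw [serD, qExpansion_discriminant]
  intro h0
  have h2 := (HahnSeries.ofPowerSeries_injective (Γ := ℤ) (R := ℂ)) (h0.trans (map_zero _).symm)
  have h3 := congrArg (PowerSeries.coeff 1) h2
  rw [PowerSeries.coeff_succ_X_mul, map_zero, PowerSeries.coeff_zero_eq_constantCoeff_apply,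
    map_pow] at h3
  have h4 : PowerSeries.constantCoeff etaProdC = 1 := by
    rw [etaProdC, ← PowerSeries.coeff_zero_eq_constantCoeff_apply, PowerSeries.coeff_map,
      PowerSeries.coeff_zero_eq_constantCoeff_apply, ModularCurve.constantCoeff_etaProd]
    simp
  rw [h4, one_pow] at h3
  exact one_ne_zero h3

/-- **the `q`-expansion of `f_{(0,d)}`**: `qExp(f_{(0,d)}) · qExp(Δ) = qExp(E₄E₆) · ∑ c_n qⁿ`. -/
theorem qExpW_frickeD {d : ℤ} (hd : ¬ (M : ℤ) ∣ d) :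
    qExpW (pmGamma1 M) 1 (T_pow_one_mem_pmGamma1 M) (frickeD d hd) * serD =
      serE * HahnSeries.ofPowerSeries ℤ ℂ (PowerSeries.mk (cF M d)) := by
  obtain ⟨m, hm⟩ := mem_merRing_of_mem_WH0_width (pmGamma1 M) 1 (T_pow_one_mem_pmGamma1 M)
    (frickeD d hd).2
  have hm' : IsMeroAtInfty 1 m (fricke M (v0 d)) := by
    have h := hm
    rw [Nat.cast_one] at h
    exact h
  have hfun : fricke M (v0 d) * (fun τ : ℍ => Δ τ) =
      ((E₄ : ℍ → ℂ) * (E₆ : ℍ → ℂ)) * (fun τ : ℍ => pwOf M 0 d τ) := by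
    funext τ
    simp only [Pi.mul_apply]
    exact fricke_v0_mul_discriminant hd τ
  have h3 := congrArg (laurentExp 1) hfun
  rw [laurentExp_mul one_pos hm' (IsMeroAtInfty.of_isHolPerBdd isHolPerBdd_discriminant),
    laurentExp_mul one_pos
      (IsMeroAtInfty.of_isHolPerBdd (isHolPerBdd_E₄.mul isHolPerBdd_E₆))
      (IsMeroAtInfty.of_isHolPerBdd (isHolPerBdd_pwOf_zero hd)),
    laurentExp_discriminant, laurentExp_E₄_mul_E₆,
    laurentExp_of_isHolPerBdd one_pos (isHolPerBdd_pwOf_zero hd), qExpansion_pwOf_zero hd] at h3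
  rw [qExpW_apply]
  show laurentExp ((1 : ℕ) : ℝ) (fricke M (v0 d)) * serD = _
  rw [Nat.cast_one]
  exact h3

/-! ### The action of `Aut(ℂ)` -/

lemma map_phi (τ : ℂ →+* ℂ) (u : ℂ) : τ (phi u) = phi (τ u) := by
  simp only [phi, map_div₀, map_pow, map_sub, map_one]

lemma zOf_eq_zpow (d : ℤ) : zOf M d = zOf M 1 ^ d := by
  rw [zOf, zOf, ← ee_int_mul]
  congr 1
  push_cast
  ring

lemma zOf_one_pow_self : zOf M 1 ^ M = 1 := by
  have hM : (M : ℂ) ≠ 0 := Nat.cast_ne_zero.2 (NeZero.ne M)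
  rw [zOf, ← ee_nat_mul]
  have : (M : ℂ) * (((1 : ℤ) : ℂ) / M) = ((1 : ℤ) : ℂ) := by
    push_cast
    field_simp
  rw [this, ee_intCast]

lemma isPrimitiveRoot_zOf_one : IsPrimitiveRoot (zOf M 1) M := by
  have h := Complex.isPrimitiveRoot_exp M (NeZero.ne M)
  have e : zOf M 1 = Complex.exp (2 * π * I / M) := by
    rw [zOf, ee]
    congr 1
    push_cast
    ring
  rw [e]
  exact h

/-- a ring endomorphism of `ℂ` maps `e(1/M)` to some `e(e/M)` -/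
theorem exists_map_zOf (τ : ℂ →+* ℂ) : ∃ e : ℤ, ∀ d : ℤ, τ (zOf M d) = zOf M (e * d) := by
  have h1 : τ (zOf M 1) ^ M = 1 := by
    rw [← map_pow, zOf_one_pow_self, map_one]
  obtain ⟨i, -, hi⟩ := (isPrimitiveRoot_zOf_one (M := M)).eq_pow_of_pow_eq_one h1
  refine ⟨(i : ℤ), fun d => ?_⟩
  rw [zOf_eq_zpow d, map_zpow₀, ← hi, zOf_eq_zpow ((i : ℤ) * d), zpow_mul, zpow_natCast]

lemma zOf_ne_one {d : ℤ} (hd : ¬ (M : ℤ) ∣ d) : zOf M d ≠ 1 := by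
  rw [zOf, Ne, ee_int_div_eq_one_iff]
  exact hd

lemma not_dvd_of_map_zOf (τ : ℂ →+* ℂ) {e d : ℤ} (he : τ (zOf M d) = zOf M (e * d))
    (hd : ¬ (M : ℤ) ∣ d) : ¬ (M : ℤ) ∣ e * d := by
  intro h
  have h1 : zOf M (e * d) = 1 := by
    rw [zOf, ee_int_div_eq_one_iff]
    exact h
  rw [h1] at he
  exact zOf_ne_one hd (τ.injective (he.trans (map_one τ).symm))

lemma map_lamG (τ : ℂ →+* ℂ) {e : ℤ} (hτ : ∀ d : ℤ, τ (zOf M d) = zOf M (e * d)) (d : ℤ)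
    (δ m : ℕ) : τ (lamG M 0 d δ m) = lamG M 0 (e * d) δ m := by
  simp only [lamG, ind1, ind2, ind3, map_mul, map_add, map_sub, map_natCast, map_pow, map_inv₀,
    hτ, apply_ite τ, map_one, map_zero, map_ofNat]

lemma map_pwCoeff (τ : ℂ →+* ℂ) {e : ℤ} (hτ : ∀ d : ℤ, τ (zOf M d) = zOf M (e * d)) (d : ℤ)
    (n : ℕ) : τ (pwCoeff M 0 d n) = pwCoeff M 0 (e * d) n := by
  by_cases hn : n = 0
  · rw [pwCoeff, pwCoeff, if_pos hn, if_pos hn, if_pos rfl, if_pos rfl, map_add, map_div₀,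
      map_one, map_ofNat, map_phi, hτ]
  · rw [pwCoeff, pwCoeff, if_neg hn, if_neg hn, map_sum]
    exact Finset.sum_congr rfl fun x _ => map_lamG τ hτ d x.1 x.2

lemma map_cF (τ : ℂ →+* ℂ) {e : ℤ} (hτ : ∀ d : ℤ, τ (zOf M d) = zOf M (e * d)) (d : ℤ)
    (n : ℕ) : τ (cF M d n) = cF M (e * d) n :=
  map_pwCoeff τ hτ d (M * n)

/-- **`τ (qExp f_{(0,d)}) = qExp f_{(0,ed)}`** where `τ(e(1/M)) = e(e/M)`. -/
theorem coeffMap_qExpW_frickeD (τ : ℂ ≃+* ℂ) {d : ℤ} (hd : ¬ (M : ℤ) ∣ d) :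
    ∃ (e : ℤ) (he : ¬ (M : ℤ) ∣ e * d),
      coeffMap (τ : ℂ →+* ℂ) (qExpW (pmGamma1 M) 1 (T_pow_one_mem_pmGamma1 M) (frickeD d hd)) =
        qExpW (pmGamma1 M) 1 (T_pow_one_mem_pmGamma1 M) (frickeD (e * d) he) := by
  obtain ⟨e, hτ⟩ := exists_map_zOf (M := M) (τ : ℂ →+* ℂ)
  have he : ¬ (M : ℤ) ∣ e * d := not_dvd_of_map_zOf (τ : ℂ →+* ℂ) (hτ d) hd
  refine ⟨e, he, ?_⟩
  have h1 := congrArg (coeffMap (τ : ℂ →+* ℂ)) (qExpW_frickeD hd)
  rw [map_mul, map_mul, coeffMap_eq_self_of_mem_ratSeries τ serD_mem,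
    coeffMap_eq_self_of_mem_ratSeries τ serE_mem, coeffMap_ofPowerSeries] at h1
  have h2 : (PowerSeries.mk (cF M d)).map (τ : ℂ →+* ℂ) = PowerSeries.mk (cF M (e * d)) := by
    ext n
    rw [PowerSeries.coeff_map, PowerSeries.coeff_mk, PowerSeries.coeff_mk]
    exact map_cF (τ : ℂ →+* ℂ) hτ d n
  rw [h2, ← qExpW_frickeD he] at h1
  exact mul_right_cancel₀ serD_ne_zero h1

/-! ### The semilinear endomorphisms of `WH0 (±Γ₁(M))` -/

section Tau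

variable (hM : 1 < M)

theorem genStable_frickeWH0 (τ : ℂ ≃+* ℂ) :
    GenStable (T_pow_one_mem_pmGamma1 M) (frickeWH0 hM) (τ : ℂ →+* ℂ) := by
  obtain ⟨e, he, h⟩ := coeffMap_qExpW_frickeD τ (not_dvd_one hM)
  refine ⟨algebraMap _ _ (frickeD (e * 1) he), ?_⟩
  rw [qExpFFW_algebraMap, frickeWH0_eq hM, h]
  rfl

/-- **the `τ`-semilinear endomorphism of `WH0 (±Γ₁(M))`** -/
def tauPm (τ : ℂ ≃+* ℂ) : WH0 (pmGamma1 M) →+* WH0 (pmGamma1 M) :=
  tauA (T_pow_one_mem_pmGamma1 M) (separates_frickeWH0 hM) (τ : ℂ →+* ℂ)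
    (genStable_frickeWH0 hM τ)

theorem qExpW_tauPm (τ : ℂ ≃+* ℂ) (x : WH0 (pmGamma1 M)) :
    qExpW (pmGamma1 M) 1 (T_pow_one_mem_pmGamma1 M) (tauPm hM τ x) =
      coeffMap (τ : ℂ →+* ℂ) (qExpW (pmGamma1 M) 1 (T_pow_one_mem_pmGamma1 M) x) :=
  qExpW_tauA _ _ _ _ x

theorem tauPm_j (τ : ℂ ≃+* ℂ) : tauPm hM τ (WH0.j (pmGamma1 M)) = WH0.j (pmGamma1 M) :=
  tauA_j _ _ _ _

theorem tauPm_algebraMap_poly (τ : ℂ ≃+* ℂ) (p : ℂ[X]) :
    tauPm hM τ (algebraMap ℂ[X] (WH0 (pmGamma1 M)) p) =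
      algebraMap ℂ[X] (WH0 (pmGamma1 M)) (p.map (τ : ℂ →+* ℂ)) :=
  tauA_algebraMap_poly _ _ _ _ p

theorem aeval_tauPm (τ : ℂ ≃+* ℂ) (x : WH0 (pmGamma1 M)) (Q : ℂ[X][X])
    (hQ : Polynomial.aeval x Q = 0) :
    Polynomial.aeval (tauPm hM τ x) (Q.map (Polynomial.mapRingHom (τ : ℂ →+* ℂ))) = 0 :=
  aeval_tauA _ _ _ _ x Q hQ

end Tau

end Fermat.Agent.S48lib.X1.Forms
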