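/-
S48lib / X1 / Forms / Stab (helper7).
**`Aut(ℂ)`-stability of the `q`-expansions of `S₂(Γ₁(M))`**, given the analytic dictionary
`DownStmt M`, `UpStmt M` (helper1's `Forms/CuspLift`): `f ↦ u = f E₄E₆/Δ ↦ tauPm τ u ↦ G`.
-/
import Mathlib
import Fermat.Agent.S48lib.X1.Forms.CuspData
import Fermat.Agent.S48lib.X1.Forms.FrickeExp
import Fermat.Agent.S48lib.W1.HeckeT

set_option autoImplicit false
set_option linter.unusedSectionVars false

noncomputable section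

namespace Fermat.Agent.S48lib.X1.Forms

open Complex Filter Function Polynomial Module
open UpperHalfPlane hiding I
open ModularForm EisensteinSeries MatrixGroups CongruenceSubgroup ModularCurve
open Fermat.Agent.ProgramR Fermat.Agent.ProgramR.QExp Fermat.Agent.ProgramR.LevelOne
  Fermat.Agent.ProgramR.Descent Fermat.Agent.S48lib.X1.HeckeJ Fermat.Agent.S48lib.X1.Wp
open scoped Real Topology Manifold

local notation "Δ" => ModularForm.discriminant

variable {M : ℕ} [NeZero M]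

/-! ### `tauPm` preserves `CuspData` -/

theorem tauPm_algebraMap (hM : 1 < M) (τ : ℂ ≃+* ℂ) (c : ℂ) :
    tauPm hM τ (algebraMap ℂ (WH0 (pmGamma1 M)) c) = algebraMap ℂ (WH0 (pmGamma1 M)) (τ c) := by
  have h := tauPm_algebraMap_poly hM τ (C c)
  rw [Polynomial.map_C] at h
  have e : ∀ b : ℂ, algebraMap ℂ[X] (WH0 (pmGamma1 M)) (C b) =
      algebraMap ℂ (WH0 (pmGamma1 M)) b := by
    intro b
    rw [← Polynomial.algebraMap_eq, ← IsScalarTower.algebraMap_apply ℂ ℂ[X] (WH0 (pmGamma1 M))]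
  rw [e, e] at h
  exact h

theorem CuspData.map_tauPm (hM : 1 < M) (τ : ℂ ≃+* ℂ) {u : WH0 (pmGamma1 M)}
    (h : CuspData M u) : CuspData M (tauPm hM τ u) where
  e4 := by
    obtain ⟨V₁, h1⟩ := h.e4
    exact ⟨tauPm hM τ V₁, by rw [← map_pow, h1, map_mul, tauPm_j]⟩
  e6 := by
    obtain ⟨V₂, h2⟩ := h.e6
    refine ⟨tauPm hM τ V₂, ?_⟩
    rw [← map_pow, h2, map_mul, map_sub, tauPm_j, tauPm_algebraMap]
    congr 3
    exact map_ofNat (τ : ℂ →+* ℂ) 1728
  poly := by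
    obtain ⟨Q, hQ1, hQ2, hQ3⟩ := h.poly
    refine ⟨Q.map (Polynomial.mapRingHom (τ : ℂ →+* ℂ)), hQ1.map _, aeval_tauPm hM τ u Q hQ2, ?_⟩
    intro i hi
    rw [hQ1.natDegree_map] at hi ⊢
    rw [Polynomial.coeff_map, Polynomial.coe_mapRingHom,
      Polynomial.natDegree_map_eq_of_injective (RingHom.injective (τ : ℂ →+* ℂ))]
    exact hQ3 i hi

/-! ### `q`-expansions -/

theorem isHolPerBdd_cuspForm_Gamma1 (f : S2 (Gamma1 M)) : IsHolPerBdd 1 (⇑f : ℍ → ℂ) where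
  holo := CuspFormClass.holo f
  periodic := (W1.isQExp_of_cuspForm f).per
  bdd := (W1.isQExp_of_cuspForm f).bdd

lemma serE_ne_zero : serE ≠ 0 := by
  have h4 : PowerSeries.coeff 0 (qExpansion 1 (E₄ : ℍ → ℂ)) = 1 := by
    have := EisensteinSeries.E_qExpansion_coeff (by norm_num : 3 ≤ 4) (by decide) 0
    simpa using this
  have h6 : PowerSeries.coeff 0 (qExpansion 1 (E₆ : ℍ → ℂ)) = 1 := by
    have := EisensteinSeries.E_qExpansion_coeff (by norm_num : 3 ≤ 6) (by decide) 0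
    simpa using this
  rw [serE, ← map_mul]
  intro h0
  have h2 := (HahnSeries.ofPowerSeries_injective (Γ := ℤ) (R := ℂ)) (h0.trans (map_zero _).symm)
  rcases mul_eq_zero.1 h2 with h | h
  · rw [h] at h4
    simp at h4
  · rw [h] at h6
    simp at h6

/-- if `u Δ = f E₄E₆` then `qExp(u) · qExp(Δ) = qExp(f) · qExp(E₄E₆)` -/
theorem qExpW_mul_serD (f : S2 (Gamma1 M)) (u : WH0 (pmGamma1 M))
    (h : ∀ τ : ℍ, u.1 τ * Δ τ = f τ * (E₄ τ * E₆ τ)) :
    qExpW (pmGamma1 M) 1 (T_pow_one_mem_pmGamma1 M) u * serD =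
      HahnSeries.ofPowerSeries ℤ ℂ (qExpansion 1 (⇑f : ℍ → ℂ)) * serE := by
  obtain ⟨m, hm⟩ := mem_merRing_of_mem_WH0_width (pmGamma1 M) 1 (T_pow_one_mem_pmGamma1 M) u.2
  have hm' : IsMeroAtInfty 1 m u.1 := by
    have h := hm
    rw [Nat.cast_one] at h
    exact h
  have hf := isHolPerBdd_cuspForm_Gamma1 f
  have hfun : u.1 * (fun τ : ℍ => Δ τ) = (⇑f : ℍ → ℂ) * ((E₄ : ℍ → ℂ) * (E₆ : ℍ → ℂ)) := by
    funext τ
    simp only [Pi.mul_apply]
    exact h τ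
  have h3 := congrArg (laurentExp 1) hfun
  rw [laurentExp_mul one_pos hm' (IsMeroAtInfty.of_isHolPerBdd isHolPerBdd_discriminant),
    laurentExp_mul one_pos (IsMeroAtInfty.of_isHolPerBdd hf)
      (IsMeroAtInfty.of_isHolPerBdd (isHolPerBdd_E₄.mul isHolPerBdd_E₆)),
    laurentExp_discriminant, laurentExp_E₄_mul_E₆, laurentExp_of_isHolPerBdd one_pos hf] at h3
  rw [qExpW_apply]
  show laurentExp ((1 : ℕ) : ℝ) u.1 * serD = _
  rw [Nat.cast_one]
  exact h3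

/-- **`Aut(ℂ)`-stability of the `q`-expansions of `S₂(Γ₁(M))`** (modulo the analytic dictionary) -/
theorem exists_cuspForm_qCoeff_eq_of (hM : 1 < M) (hd : DownStmt M) (hu : UpStmt M)
    (τ : ℂ ≃+* ℂ) (f : S2 (Gamma1 M)) :
    ∃ g : S2 (Gamma1 M), ∀ n : ℕ,
      ModularFormClass.qCoeff (g : ℍ → ℂ) n = τ (ModularFormClass.qCoeff (f : ℍ → ℂ) n) := by
  obtain ⟨u, hu1, hu2⟩ := hd f
  obtain ⟨G, hG⟩ := hu (tauPm hM τ u) (hu2.map_tauPm hM τ)
  refine ⟨G, fun n => ?_⟩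
  have h1 := qExpW_mul_serD f u hu1
  have h2 := qExpW_mul_serD G (tauPm hM τ u) (fun τ' => (hG τ').symm)
  rw [qExpW_tauPm] at h2
  have h3 := congrArg (coeffMap (τ : ℂ →+* ℂ)) h1
  rw [map_mul, map_mul, coeffMap_eq_self_of_mem_ratSeries τ serD_mem,
    coeffMap_eq_self_of_mem_ratSeries τ serE_mem] at h3
  have h4 := mul_right_cancel₀ serE_ne_zero (h2.symm.trans h3)
  have h6 := congrArg (fun x : LaurentSeries ℂ => x.coeff (n : ℤ)) h4
  simp only [coeffMap_coeff, HahnSeries.ofPowerSeries_apply_coeff] at h6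
  exact h6

end Fermat.Agent.S48lib.X1.Forms
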