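/-
S48lib / X1 / Forms / Main (helper7).
Assembly of P2: `DownStmt M` (from `CuspDown`), `Aut(ℂ)`-stability of the `q`-expansions of
`S₂(Γ₁(M))` and **`S₂(Γ₁(M))` is spanned by the forms with integral `q`-expansion** — both modulo
`UpStmt M` (helper1's `CuspLift`).
-/
import Mathlib
import Fermat.Agent.S48lib.X1.Forms.Stab
import Fermat.Agent.S48lib.X1.Forms.CuspDown
import Fermat.Agent.S48lib.X1.Forms.Pm
import Fermat.Agent.S48lib.X1.Forms.Gamma1

set_option autoImplicit false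
set_option linter.unusedSectionVars false

noncomputable section

namespace Fermat.Agent.S48lib.X1.Forms

open Polynomial CongruenceSubgroup UpperHalfPlane ModularFormClass
open Fermat.Agent.ProgramR Fermat.Agent.S48lib.X1.Wp
open scoped MatrixGroups

variable (M : ℕ) [NeZero M]

/-- **(B1)** in the shape consumed by `Stab` -/
theorem downStmt : DownStmt M := by
  intro f
  obtain ⟨U, h1, ⟨V₁, h2⟩, ⟨V₂, h3⟩, Q, hQ1, hQ2, hQ3⟩ := exists_cuspLift_data (toPm M f)
  refine ⟨U, fun τ => h1 τ, ⟨⟨V₁, h2⟩, ⟨V₂, ?_⟩, ⟨Q, hQ1, hQ2, fun i hi => ?_⟩⟩⟩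
  · rw [h3]
    congr 2
  · have := hQ3 i hi
    omega

variable {M}

/-- **`Aut(ℂ)`-stability of the `q`-expansions of `S₂(Γ₁(M))`** -/
theorem exists_cuspForm_qCoeff_eq_of_upStmt (hM : 1 < M) (hu : UpStmt M) (τ : ℂ ≃+* ℂ)
    (f : S2 (Gamma1 M)) :
    ∃ g : S2 (Gamma1 M), ∀ n : ℕ, qCoeff (g : ℍ → ℂ) n = τ (qCoeff (f : ℍ → ℂ) n) :=
  exists_cuspForm_qCoeff_eq_of hM (downStmt M) hu τ f

/-- **`S₂(Γ₁(M))` is spanned over `ℂ` by the forms with integral `q`-expansion** -/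
theorem span_intLattice_eq_top_of_upStmt (hM : 1 < M) (hu : UpStmt M) :
    Submodule.span ℂ ((Iface.intLattice M 2 : Submodule ℤ (CuspForm (Gamma1 M) 2)) :
      Set (CuspForm (Gamma1 M) 2)) = ⊤ :=
  span_intLattice_eq_top_of_stable M (exists_cuspForm_qCoeff_eq_of_upStmt hM hu)

end Fermat.Agent.S48lib.X1.Forms
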