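/-
S48lib / X1 / Forms / Final (helper7).
P2, unconditional statements: **`Aut(ℂ)`-stability of the `q`-expansions of `S₂(Γ₁(M))`** (`M ≥ 2`)
and **`S₂(Γ₁(M))` is spanned over `ℂ` by the forms with integral `q`-expansion** (every `M ≥ 1`).
Inputs: `Forms/Main` (everything modulo `UpStmt`), helper1's `Forms/CuspUp` (`upStmt`).
-/
import Mathlib
import Fermat.Agent.S48lib.X1.Forms.Main
import Fermat.Agent.S48lib.X1.Forms.CuspUp

set_option autoImplicit false
set_option linter.unusedSectionVars false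

noncomputable section

namespace Fermat.Agent.S48lib.X1.Forms

open Polynomial CongruenceSubgroup UpperHalfPlane ModularFormClass
open Fermat.Agent.ProgramR Fermat.Agent.S48lib.X1.Wp
open scoped MatrixGroups

variable {M : ℕ} [NeZero M]

/-- **`Aut(ℂ)`-stability of the `q`-expansions of `S₂(Γ₁(M))`**, `M ≥ 2`. -/
theorem exists_cuspForm_qCoeff_eq (hM : 1 < M) (τ : ℂ ≃+* ℂ) (f : S2 (Gamma1 M)) :
    ∃ g : S2 (Gamma1 M), ∀ n : ℕ, qCoeff (g : ℍ → ℂ) n = τ (qCoeff (f : ℍ → ℂ) n) :=
  exists_cuspForm_qCoeff_eq_of_upStmt hM (upStmt M) τ f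

/-- **`S₂(Γ₁(M))` is spanned over `ℂ` by the forms with integral `q`-expansion**, `M ≥ 2`. -/
theorem span_intLattice_eq_top (hM : 1 < M) :
    Submodule.span ℂ ((Iface.intLattice M 2 : Submodule ℤ (CuspForm (Gamma1 M) 2)) :
      Set (CuspForm (Gamma1 M) 2)) = ⊤ :=
  span_intLattice_eq_top_of_upStmt hM (upStmt M)

/-! ### Level one -/

theorem mem_Gamma1_one (γ : SL(2, ℤ)) : γ ∈ Gamma1 1 := by
  rw [Gamma1_mem]
  exact ⟨Subsingleton.elim _ _, Subsingleton.elim _ _, Subsingleton.elim _ _⟩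

theorem S_pow_four : (ModularGroup.S : SL(2, ℤ)) ^ 4 = 1 := by
  have h : (ModularGroup.S : SL(2, ℤ)) ^ 2 = -1 := by
    apply Subtype.ext
    rw [pow_two]
    simpa using ModularGroup.S_mul_S_eq
  have e : (ModularGroup.S : SL(2, ℤ)) ^ 4 = (ModularGroup.S ^ 2) ^ 2 := by rw [← pow_mul]
  rw [e, h]
  simp

/-- all periods of a weight 2 cusp form of level one vanish (`SL(2,ℤ) = ⟨S, T⟩`, `S` has finite
order and `T` is parabolic) -/
theorem period_level_one (f : S2 (Gamma1 1)) (γ : SL(2, ℤ)) :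
    period f ⟨γ, mem_Gamma1_one γ⟩ = 0 := by
  have hγ : γ ∈ Subgroup.closure ({ModularGroup.S, ModularGroup.T} : Set SL(2, ℤ)) := by
    rw [SpecialLinearGroup.SL2Z_generators]
    trivial
  induction hγ using Subgroup.closure_induction with
  | mem x hx =>
    rcases hx with rfl | rfl
    · refine period_eq_zero_of_pow_eq_one f _ (n := 4) (by norm_num) ?_
      apply Subtype.ext
      exact S_pow_four
    · refine period_eq_zero_of_eq_conj_T_zpow f _ 1 1 ?_
      simp
  | one => exact period_one f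
  | mul x y _ _ hx hy =>
    have := period_mul f ⟨x, mem_Gamma1_one x⟩ ⟨y, mem_Gamma1_one y⟩
    rw [hx, hy, add_zero] at this
    exact this
  | inv x _ hx =>
    have := period_inv f ⟨x, mem_Gamma1_one x⟩
    rw [hx, neg_zero] at this
    exact this

/-- there are no cusp forms of weight 2 and level one -/
theorem eq_zero_of_level_one (f : S2 (Gamma1 1)) : f = 0 := by
  apply periodLin_injective (Gamma1 1)
  rw [map_zero]
  refine AddMonoidHom.ext fun γ => ?_
  obtain ⟨γ, rfl⟩ := Additive.ofMul.surjective γ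
  rw [periodLin_apply, AddMonoidHom.zero_apply]
  exact period_level_one f γ.1

/-- **`S₂(Γ₁(M))` is spanned over `ℂ` by the forms with integral `q`-expansion**, every `M ≥ 1`. -/
theorem spanInt (M : ℕ) [NeZero M] :
    Submodule.span ℂ ((Iface.intLattice M 2 : Submodule ℤ (CuspForm (Gamma1 M) 2)) :
      Set (CuspForm (Gamma1 M) 2)) = ⊤ := by
  rcases Nat.lt_or_ge 1 M with hM | hM
  · exact span_intLattice_eq_top hM
  · have h1 : M = 1 := le_antisymm hM (NeZero.pos M)
    subst h1
    rw [eq_top_iff]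
    intro f _
    rw [eq_zero_of_level_one f]
    exact Submodule.zero_mem _

end Fermat.Agent.S48lib.X1.Forms
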